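import Fermat.Prelude.Def_FLTPrelim_Ramification
import Mathlib

/-!
# Places of algebraic extensions of `ℚ`

Valuation subrings of an algebraic extension of `ℚ` contain all algebraic integers, are
determined by the algebraic integers among their nonunits (`eq_of_forall_isIntegral`), and
exist over every prime (`exists_liesOverPrime`).
-/

set_option autoImplicit false

namespace Fermat.Agent.Gal

open Polynomial
open scoped Pointwise

section General

variable {L : Type*} [Field L]

/-- Every valuation subring contains the algebraic integers. -/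
theorem mem_of_isIntegral (A : ValuationSubring L) {x : L} (hx : IsIntegral ℤ x) : x ∈ A := by
  have hxA : IsIntegral A x := hx.tower_top
  obtain ⟨y, hy⟩ := IsIntegrallyClosed.algebraMap_eq_of_integral hxA
  rw [← hy]
  exact y.2

theorem one_notMem_nonunits (A : ValuationSubring L) : (1 : L) ∉ A.nonunits := by
  simp [ValuationSubring.mem_nonunits_iff]

theorem mul_mem_nonunits_left (A : ValuationSubring L) {x y : L} (hx : x ∈ A.nonunits)
    (hy : y ∈ A) : x * y ∈ A.nonunits := by
  rw [ValuationSubring.mem_nonunits_iff, map_mul]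
  exact mul_lt_one_of_lt_of_le hx ((A.valuation_le_one_iff y).mpr hy)

theorem mul_mem_nonunits_right (A : ValuationSubring L) {x y : L} (hx : x ∈ A)
    (hy : y ∈ A.nonunits) : x * y ∈ A.nonunits := by
  rw [mul_comm]
  exact mul_mem_nonunits_left A hy hx

/-- The nonunits of a valuation subring form a prime ideal. -/
theorem mem_nonunits_or_mem_nonunits (A : ValuationSubring L) {x y : L} (_hx : x ∈ A) (_hy : y ∈ A)
    (h : x * y ∈ A.nonunits) : x ∈ A.nonunits ∨ y ∈ A.nonunits := by
  simp only [ValuationSubring.mem_nonunits_iff, map_mul] at h ⊢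
  by_contra hc
  simp only [not_or, not_lt] at hc
  exact absurd h (not_lt.mpr (one_le_mul hc.1 hc.2))

theorem inv_mem_of_mem_of_notMem_nonunits (A : ValuationSubring L) {s : L}
    (hs' : s ∉ A.nonunits) : s⁻¹ ∈ A := by
  by_contra h
  exact hs' (A.mem_nonunits_iff_or.mpr (Or.inr h))

theorem mem_nonunits_of_pow_mem (A : ValuationSubring L) {x : L} {n : ℕ} (hx : x ∈ A)
    (h : x ^ n ∈ A.nonunits) : x ∈ A.nonunits := by
  induction n with
  | zero => exact absurd (by simpa using h) (one_notMem_nonunits A)
  | succ n ih =>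
    rw [pow_succ] at h
    exact (mem_nonunits_or_mem_nonunits A (pow_mem hx n) hx h).elim ih id

theorem pow_mem_nonunits (A : ValuationSubring L) {x : L} {n : ℕ} (hn : n ≠ 0)
    (h : x ∈ A.nonunits) : x ^ n ∈ A.nonunits := by
  obtain ⟨n, rfl⟩ := Nat.exists_eq_succ_of_ne_zero hn
  rw [pow_succ]
  exact mul_mem_nonunits_right A (pow_mem (show x ∈ A from A.nonunits_le h) n) h

theorem prime_mem_nonunits_eq (A : ValuationSubring L) {p q : ℕ} (hp : p.Prime) (hq : q.Prime)
    (h : A.LiesOverPrime p) (h' : A.LiesOverPrime q) : p = q := by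
  by_contra hne
  obtain ⟨a, b, hab⟩ := Int.isCoprime_iff_gcd_eq_one.mpr
    (show Int.gcd (p : ℤ) (q : ℤ) = 1 from (Nat.coprime_primes hp hq).mpr hne)
  apply one_notMem_nonunits A
  have h1 : (1 : L) = (a : L) * (p : L) + (b : L) * (q : L) := by
    exact_mod_cast (congrArg (Int.cast : ℤ → L) hab).symm
  rw [h1]
  exact add_mem (mul_mem_nonunits_right A (intCast_mem A a) h)
    (mul_mem_nonunits_right A (intCast_mem A b) h')

theorem intCast_mem_nonunits_iff (A : ValuationSubring L) {q : ℕ} (hq : q.Prime)
    (h : A.LiesOverPrime q) (n : ℤ) : (n : L) ∈ A.nonunits ↔ (q : ℤ) ∣ n := by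
  constructor
  · intro hn
    by_contra hndvd
    obtain ⟨a, b, hab⟩ := ((Nat.prime_iff_prime_int.mp hq).coprime_iff_not_dvd).mpr hndvd
    apply one_notMem_nonunits A
    have h1 : (1 : L) = (a : L) * (q : L) + (b : L) * (n : L) := by
      exact_mod_cast (congrArg (Int.cast : ℤ → L) hab).symm
    rw [h1]
    exact add_mem (mul_mem_nonunits_right A (intCast_mem A a) h)
      (mul_mem_nonunits_right A (intCast_mem A b) hn)
  · rintro ⟨k, rfl⟩
    push_cast
    exact mul_mem_nonunits_left A h (intCast_mem A k)

theorem natCast_mem_nonunits_iff (A : ValuationSubring L) {q : ℕ} (hq : q.Prime)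
    (h : A.LiesOverPrime q) (n : ℕ) : (n : L) ∈ A.nonunits ↔ q ∣ n := by
  rw [← Int.natCast_dvd_natCast, ← intCast_mem_nonunits_iff A hq h (n : ℤ)]
  simp

/-- Key lemma: if `x ∈ A` is a root of a polynomial with algebraic-integer coefficients, not all
in the maximal ideal, then `x` is a quotient of algebraic integers with denominator a unit of
`A`. -/
theorem exists_mul_eq_of_poly (A : ValuationSubring L) {x : L} (hx : x ∈ A) :
    ∀ (n : ℕ) (p : (integralClosure ℤ L)[X]), p.natDegree ≤ n → aeval x p = 0 →
      (∃ i, ((p.coeff i : integralClosure ℤ L) : L) ∉ A.nonunits) →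
      ∃ b s : L, IsIntegral ℤ b ∧ IsIntegral ℤ s ∧ s ∉ A.nonunits ∧ x * s = b := by
  intro n
  induction n with
  | zero =>
    intro p hd h0 ⟨i, hi⟩
    rw [Nat.le_zero] at hd
    rw [eq_C_of_natDegree_eq_zero hd, aeval_C] at h0
    rcases Nat.eq_zero_or_pos i with rfl | hi0
    · exact absurd (by rw [show ((p.coeff 0 : integralClosure ℤ L) : L) = 0 from h0];
                       exact zero_mem _) hi
    · rw [coeff_eq_zero_of_natDegree_lt (hd ▸ hi0)] at hi
      exact absurd (zero_mem _) hi
  | succ n ih =>
    intro p hd h0 ⟨i, hi⟩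
    rcases Nat.lt_or_ge p.natDegree (n + 1) with hlt | hge
    · exact ih p (Nat.lt_succ_iff.mp hlt) h0 ⟨i, hi⟩
    have hdeg : p.natDegree = n + 1 := le_antisymm hd hge
    have hc : IsIntegral ℤ ((p.leadingCoeff : L) * x) :=
      isIntegral_trans (R := ℤ) _ (isIntegral_leadingCoeff_smul p x h0)
    by_cases ha : (p.leadingCoeff : L) ∈ A.nonunits
    swap
    · exact ⟨_, _, hc, p.leadingCoeff.2, ha, mul_comm _ _⟩
    set c : integralClosure ℤ L := ⟨_, hc⟩ with hcdef
    have hcA : (c : L) ∈ A.nonunits := mul_mem_nonunits_left A ha hx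
    set p' := p.eraseLead + C c * X ^ n with hp'
    have hsplit : p = p.eraseLead + C p.leadingCoeff * X ^ (n + 1) := by
      conv_lhs => rw [← eraseLead_add_C_mul_X_pow p, hdeg]
    refine ih p' ?_ ?_ ⟨i, ?_⟩
    · refine (natDegree_add_le _ _).trans (max_le ?_ (natDegree_C_mul_X_pow_le c n))
      have := p.eraseLead_natDegree_le
      omega
    · rw [hsplit] at h0
      rw [hp']
      simp only [map_add, map_mul, map_pow, aeval_C, aeval_X] at h0 ⊢
      rw [← h0, pow_succ]
      change _ + (p.leadingCoeff : L) * x * x ^ n = _ + (p.leadingCoeff : L) * (x ^ n * x)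
      ring
    · intro hi'
      refine hi ?_
      have hp : ((p.coeff i : integralClosure ℤ L) : L)
          = (p'.coeff i : L) + ((if i = n + 1 then p.leadingCoeff else 0 : integralClosure ℤ L) : L)
            - ((if i = n then c else 0 : integralClosure ℤ L) : L) := by
        conv_lhs => rw [hsplit]
        simp only [hp', coeff_add, coeff_C_mul_X_pow]
        push_cast
        ring
      rw [hp]
      refine sub_mem (add_mem hi' ?_) ?_ <;> split_ifs
      exacts [ha, zero_mem _, hcA, zero_mem _]

variable [CharZero L] [Algebra.IsAlgebraic ℚ L]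

theorem isAlgebraic_int (x : L) : IsAlgebraic ℤ x :=
  (IsFractionRing.isAlgebraic_iff ℤ ℚ L).mpr (Algebra.IsAlgebraic.isAlgebraic x)

/-- Every element of a valuation subring `A` of an algebraic extension of `ℚ` is a quotient of
algebraic integers with denominator a unit in `A`. -/
theorem exists_mul_eq_of_mem (A : ValuationSubring L) {x : L} (hx : x ∈ A) :
    ∃ b s : L, IsIntegral ℤ b ∧ IsIntegral ℤ s ∧ s ∉ A.nonunits ∧ x * s = b := by
  obtain ⟨p, hp0, hpx⟩ := isAlgebraic_int x
  have hq := Polynomial.aeval_primPart_eq_zero hp0 hpx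
  set q := p.primPart with hqdef
  refine exists_mul_eq_of_poly A hx q.natDegree (q.map (algebraMap ℤ (integralClosure ℤ L)))
    natDegree_map_le ?_ ?_
  · rw [aeval_map_algebraMap]
    exact hq
  · by_contra hall
    simp only [not_exists, not_not, coeff_map] at hall
    let I : Ideal ℤ :=
      { carrier := {n | (n : L) ∈ A.nonunits}
        add_mem' := fun {a b} ha hb => by
          simpa using add_mem (show (a : L) ∈ A.nonunits from ha) hb
        zero_mem' := by simp
        smul_mem' := fun r a ha => by
          simpa using mul_mem_nonunits_right A (intCast_mem A r)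
            (show (a : L) ∈ A.nonunits from ha) }
    obtain ⟨d, hd⟩ := (IsPrincipalIdealRing.principal I).principal
    have hdI : d ∈ I := hd ▸ Submodule.mem_span_singleton_self d
    have hunit : IsUnit d := by
      refine p.isPrimitive_primPart d ((C_dvd_iff_dvd_coeff _ _).mpr fun i => ?_)
      have hmem : q.coeff i ∈ I := by
        change ((q.coeff i : ℤ) : L) ∈ A.nonunits
        simpa using hall i
      rw [hd, Submodule.mem_span_singleton] at hmem
      obtain ⟨a, ha⟩ := hmem
      exact ⟨a, by rw [← ha, smul_eq_mul, mul_comm]⟩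
    have h1 : (1 : ℤ) ∈ I := by
      rw [Ideal.eq_top_of_isUnit_mem I hdI hunit]
      exact Submodule.mem_top
    exact one_notMem_nonunits A (by simpa using (show ((1 : ℤ) : L) ∈ A.nonunits from h1))

/-- `A ≤ A'` if every algebraic integer which is a nonunit of `A'` is a nonunit of `A`. -/
theorem le_of_forall_isIntegral {A A' : ValuationSubring L}
    (h : ∀ x : L, IsIntegral ℤ x → x ∈ A'.nonunits → x ∈ A.nonunits) : A ≤ A' := by
  intro x hx
  obtain ⟨b, s, hb, hs, hsA, hxs⟩ := exists_mul_eq_of_mem A hx
  have hs0 : s ≠ 0 := by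
    rintro rfl
    exact hsA (zero_mem _)
  rw [(eq_mul_inv_iff_mul_eq₀ hs0).mpr hxs]
  exact mul_mem (mem_of_isIntegral A' hb)
    (inv_mem_of_mem_of_notMem_nonunits A' fun hs' => hsA (h s hs hs'))

/-- A valuation subring is determined by the algebraic integers among its nonunits. -/
theorem eq_of_forall_isIntegral {A A' : ValuationSubring L}
    (h : ∀ x : L, IsIntegral ℤ x → (x ∈ A.nonunits ↔ x ∈ A'.nonunits)) : A = A' :=
  le_antisymm (le_of_forall_isIntegral fun x hx => (h x hx).mpr)
    (le_of_forall_isIntegral fun x hx => (h x hx).mp)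

omit [Algebra.IsAlgebraic ℚ L] in
theorem not_isIntegral_inv_prime {q : ℕ} (hq : q.Prime) : ¬ IsIntegral ℤ ((q : L)⁻¹) := by
  intro h
  have h' : IsIntegral ℤ ((q : ℚ)⁻¹) := by
    rw [← isIntegral_algHom_iff ((algebraMap ℚ L).toIntAlgHom) (algebraMap ℚ L).injective]
    simpa using h
  obtain ⟨n, hn⟩ := IsIntegrallyClosed.algebraMap_eq_of_integral h'
  have hqn : ((q : ℤ) * n : ℤ) = 1 := by
    have : ((q : ℤ) : ℚ) * (n : ℚ) = 1 := by
      rw [show (n : ℚ) = (q : ℚ)⁻¹ from hn]
      push_cast
      exact mul_inv_cancel₀ (by exact_mod_cast hq.ne_zero)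
    exact_mod_cast this
  have := Int.eq_one_of_mul_eq_one_right (by positivity) hqn
  exact hq.ne_one (by exact_mod_cast this)

omit [Algebra.IsAlgebraic ℚ L] in
/-- There is a valuation subring over every prime. -/
theorem exists_liesOverPrime {q : ℕ} (hq : q.Prime) :
    ∃ A : ValuationSubring L, A.LiesOverPrime q := by
  have hne : (Ideal.span {(q : (integralClosure ℤ L).toSubring)}) ≠ ⊤ := by
    intro h
    obtain ⟨u, hu⟩ := Ideal.span_singleton_eq_top.mp h |>.exists_right_inv
    refine not_isIntegral_inv_prime (L := L) hq ?_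
    rw [← eq_inv_of_mul_eq_one_right (a := (q : L)) (b := (u : L))
      (by simpa using congrArg (Subtype.val) hu)]
    exact u.2
  obtain ⟨B, -, hB⟩ := Ideal.image_subset_nonunits_valuationSubring _ hne
  exact ⟨B, hB ⟨_, Ideal.mem_span_singleton_self _, by simp⟩⟩

/-- A nontrivial valuation subring lies over some prime. -/
theorem exists_prime_of_ne_top {A : ValuationSubring L} (h : A ≠ ⊤) :
    ∃ q : ℕ, q.Prime ∧ A.LiesOverPrime q := by
  by_contra hno
  simp only [not_exists, not_and] at hno
  have hint : ∀ n : ℤ, n ≠ 0 → (n : L) ∉ A.nonunits := by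
    have hnat : ∀ n : ℕ, n ≠ 0 → (n : L) ∉ A.nonunits := by
      intro n
      induction n using Nat.recOnMul with
      | zero => simp
      | one => exact fun _ => by simpa using one_notMem_nonunits A
      | prime p hp => exact fun _ => hno p hp
      | mul a b iha ihb =>
        intro hab hmem
        push_cast at hmem
        rcases mem_nonunits_or_mem_nonunits A (natCast_mem A a) (natCast_mem A b) hmem with h' | h'
        · exact iha (left_ne_zero_of_mul hab) h'
        · exact ihb (right_ne_zero_of_mul hab) h'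
    intro n hn hmem
    rcases n.natAbs_eq with he | he
    · rw [he, Int.cast_natCast] at hmem
      exact hnat _ (Int.natAbs_ne_zero.mpr hn) hmem
    · rw [he, Int.cast_neg, Int.cast_natCast] at hmem
      exact hnat _ (Int.natAbs_ne_zero.mpr hn) (by simpa using neg_mem hmem)
  apply h
  refine le_antisymm le_top (le_of_forall_isIntegral fun x hx hxA => ?_)
  rcases eq_or_ne x 0 with rfl | hx0
  · exact zero_mem _
  exfalso
  obtain ⟨p, hp0, hpx⟩ := IsAlgebraic.exists_nonzero_coeff_and_aeval_eq_zero
    (isAlgebraic_int x) (mem_nonZeroDivisors_of_ne_zero hx0)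
  refine hint _ hp0 ?_
  have hsplit : aeval x p = x * aeval x p.divX + ((p.coeff 0 : ℤ) : L) := by
    conv_lhs => rw [← X_mul_divX_add p]
    simp
  rw [hpx] at hsplit
  rw [show ((p.coeff 0 : ℤ) : L) = -(x * aeval x p.divX) by linear_combination -hsplit]
  refine neg_mem (mul_mem_nonunits_left A hxA (mem_of_isIntegral A ?_))
  exact IsIntegral.of_mem_of_fg _ (IsIntegral.fg_adjoin_singleton hx) _
    (Algebra.adjoin_singleton_eq_range_aeval ℤ x ▸ ⟨_, rfl⟩)

end General

section Instances

/-- `AlgebraicClosure ℚ` is algebraic over `ℚ` (for the canonical `ℚ`-algebra structure). -/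
instance isAlgebraic_rat_qbar : Algebra.IsAlgebraic ℚ (AlgebraicClosure ℚ) :=
  AlgebraicClosure.isAlgebraic ℚ

/-- `AlgebraicClosure ℚ` is Galois over `ℚ` (for the canonical `ℚ`-algebra structure). -/
instance isGalois_rat_qbar : IsGalois ℚ (AlgebraicClosure ℚ) :=
  haveI : IsAlgClosure ℚ (AlgebraicClosure ℚ) := ⟨inferInstance, inferInstance⟩
  haveI : Normal ℚ (AlgebraicClosure ℚ) := IsAlgClosure.normal ℚ (AlgebraicClosure ℚ)
  ⟨⟩

end Instances

end Fermat.Agent.Gal
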