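import Mathlib
import Fermat.Agent.Gal.Places
import Fermat.Prelude.Def_EllipticCurve_FrobeniusTrace

/-!
# Decomposition, inertia and Frobenius at places of `ℚ̄`

Inertia and Frobenius elements at the valuation subrings of `AlgebraicClosure ℚ`: tests on
algebraic integers, transitivity on the places over a prime
(`exists_smul_eq_of_liesOverPrime`), and existence of Frobenius elements
(`exists_isFrobeniusAt`).
-/

set_option autoImplicit false

namespace Fermat.Agent.Gal

open scoped Pointwise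

section General

variable {K L : Type*} [Field K] [Field L] [Algebra K L]

theorem mem_smul_valuationSubring_iff (σ : L ≃ₐ[K] L) (A : ValuationSubring L) (x : L) :
    x ∈ σ • A ↔ σ.symm x ∈ A :=
  ValuationSubring.mem_pointwise_smul_iff_inv_smul_mem

theorem mem_nonunits_smul_iff (σ : L ≃ₐ[K] L) (A : ValuationSubring L) (x : L) :
    x ∈ (σ • A).nonunits ↔ σ.symm x ∈ A.nonunits := by
  rw [ValuationSubring.mem_nonunits_iff_or, ValuationSubring.mem_nonunits_iff_or,
    mem_smul_valuationSubring_iff, map_inv₀, EmbeddingLike.map_eq_zero_iff]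

theorem apply_mem_nonunits_smul_iff (σ : L ≃ₐ[K] L) (A : ValuationSubring L) (x : L) :
    σ x ∈ (σ • A).nonunits ↔ x ∈ A.nonunits := by
  rw [mem_nonunits_smul_iff, AlgEquiv.symm_apply_apply]

theorem apply_mem_nonunits_iff {σ : L ≃ₐ[K] L} {A : ValuationSubring L} (h : σ • A = A) (x : L) :
    σ x ∈ A.nonunits ↔ x ∈ A.nonunits := by
  conv_lhs => rw [← h]
  exact apply_mem_nonunits_smul_iff σ A x

theorem apply_mem_iff {σ : L ≃ₐ[K] L} {A : ValuationSubring L} (h : σ • A = A) (x : L) :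
    σ x ∈ A ↔ x ∈ A := by
  conv_lhs => rw [← h]
  rw [mem_smul_valuationSubring_iff, AlgEquiv.symm_apply_apply]

theorem isIntegral_apply (σ : L ≃ₐ[K] L) {x : L} (hx : IsIntegral ℤ x) : IsIntegral ℤ (σ x) :=
  hx.map σ.toAlgHom.toRingHom.toIntAlgHom

theorem liesOverPrime_smul (σ : L ≃ₐ[K] L) {A : ValuationSubring L} {q : ℕ}
    (h : A.LiesOverPrime q) : (σ • A).LiesOverPrime q := by
  rw [ValuationSubring.LiesOverPrime, mem_nonunits_smul_iff, map_natCast]
  exact h

theorem residue_eq_residue_iff (A : ValuationSubring L) (a b : A) :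
    IsLocalRing.residue A a = IsLocalRing.residue A b ↔ (a : L) - b ∈ A.nonunits := by
  rw [← sub_eq_zero, ← map_sub, IsLocalRing.residue_eq_zero_iff, ← A.coe_mem_nonunits_iff]
  rfl

theorem residue_smul_eq (A : ValuationSubring L) (σ : L ≃ₐ[K] L)
    (hσ : σ ∈ A.decompositionSubgroup K) (a : A) :
    (⟨σ, hσ⟩ : A.decompositionSubgroup K) • IsLocalRing.residue A a =
      IsLocalRing.residue A ⟨σ a, (apply_mem_iff hσ a).mpr a.2⟩ := by
  rw [← IsLocalRing.ResidueField.residue_smul]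
  rfl

theorem mem_inertia_iff (A : ValuationSubring L) (σ : L ≃ₐ[K] L) :
    σ ∈ A.inertiaSubgroupIn K ↔ σ • A = A ∧ ∀ a ∈ A, σ a - a ∈ A.nonunits := by
  constructor
  · rintro ⟨⟨τ, hτ⟩, hker, rfl⟩
    refine ⟨hτ, fun a ha => ?_⟩
    have h := RingEquiv.congr_fun (MonoidHom.mem_ker.mp hker) (IsLocalRing.residue A ⟨a, ha⟩)
    change (⟨τ, hτ⟩ : A.decompositionSubgroup K) • IsLocalRing.residue A ⟨a, ha⟩ =
      IsLocalRing.residue A ⟨a, ha⟩ at h
    rw [residue_smul_eq A τ hτ, residue_eq_residue_iff] at h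
    exact h
  · rintro ⟨hσ, h⟩
    refine ⟨⟨σ, hσ⟩, MonoidHom.mem_ker.mpr (RingEquiv.ext fun x => ?_), rfl⟩
    obtain ⟨a, rfl⟩ := IsLocalRing.residue_surjective x
    change (⟨σ, hσ⟩ : A.decompositionSubgroup K) • IsLocalRing.residue A a =
      IsLocalRing.residue A a
    rw [residue_smul_eq A σ hσ, residue_eq_residue_iff]
    exact h a a.2

theorem isFrobeniusAt_iff (A : ValuationSubring L) (σ : L ≃ₐ[K] L) (q : ℕ) :
    A.IsFrobeniusAt σ q ↔ σ • A = A ∧ ∀ a ∈ A, σ a - a ^ q ∈ A.nonunits := by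
  constructor
  · rintro ⟨hσ, h⟩
    refine ⟨hσ, fun a ha => ?_⟩
    have h' := h (IsLocalRing.residue A ⟨a, ha⟩)
    rw [residue_smul_eq A σ hσ, ← map_pow, residue_eq_residue_iff] at h'
    simpa using h'
  · rintro ⟨hσ, h⟩
    refine ⟨hσ, fun x => ?_⟩
    obtain ⟨a, rfl⟩ := IsLocalRing.residue_surjective x
    rw [residue_smul_eq A σ hσ, ← map_pow, residue_eq_residue_iff]
    simpa using h a a.2

theorem mem_inertia_smul_iff (τ σ : L ≃ₐ[K] L) (A : ValuationSubring L) :
    τ * σ * τ⁻¹ ∈ (τ • A).inertiaSubgroupIn K ↔ σ ∈ A.inertiaSubgroupIn K := by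
  rw [mem_inertia_iff, mem_inertia_iff]
  refine and_congr ?_ ⟨fun h a ha => ?_, fun h a ha => ?_⟩
  · rw [smul_smul, inv_mul_cancel_right, mul_smul, smul_left_cancel_iff]
  · have := h (τ a) (ValuationSubring.smul_mem_pointwise_smul τ a A ha)
    rw [← apply_mem_nonunits_smul_iff τ A, map_sub]
    simpa [AlgEquiv.mul_apply, AlgEquiv.aut_inv] using this
  · rw [mem_smul_valuationSubring_iff] at ha
    have := h _ ha
    rw [← apply_mem_nonunits_smul_iff τ A, map_sub, AlgEquiv.apply_symm_apply] at this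
    simpa [AlgEquiv.mul_apply, AlgEquiv.aut_inv] using this

theorem isFrobeniusAt_smul_iff (τ σ : L ≃ₐ[K] L) (A : ValuationSubring L) (q : ℕ) :
    (τ • A).IsFrobeniusAt (τ * σ * τ⁻¹) q ↔ A.IsFrobeniusAt σ q := by
  rw [isFrobeniusAt_iff, isFrobeniusAt_iff]
  refine and_congr ?_ ⟨fun h a ha => ?_, fun h a ha => ?_⟩
  · rw [smul_smul, inv_mul_cancel_right, mul_smul, smul_left_cancel_iff]
  · have := h (τ a) (ValuationSubring.smul_mem_pointwise_smul τ a A ha)
    rw [← apply_mem_nonunits_smul_iff τ A, map_sub, map_pow]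
    simpa [AlgEquiv.mul_apply, AlgEquiv.aut_inv] using this
  · rw [mem_smul_valuationSubring_iff] at ha
    have := h _ ha
    rw [← apply_mem_nonunits_smul_iff τ A, map_sub, map_pow, AlgEquiv.apply_symm_apply] at this
    simpa [AlgEquiv.mul_apply, AlgEquiv.aut_inv] using this

/-- A Frobenius times an inertia element is a Frobenius. -/
theorem isFrobeniusAt_mul_inertia {A : ValuationSubring L} {σ τ : L ≃ₐ[K] L} {q : ℕ}
    (hσ : A.IsFrobeniusAt σ q) (hτ : τ ∈ A.inertiaSubgroupIn K) :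
    A.IsFrobeniusAt (σ * τ) q := by
  rw [isFrobeniusAt_iff] at hσ ⊢
  rw [mem_inertia_iff] at hτ
  refine ⟨by rw [mul_smul, hτ.1, hσ.1], fun a ha => ?_⟩
  have h1 := (apply_mem_nonunits_iff hσ.1 _).mpr (hτ.2 a ha)
  have := add_mem h1 (hσ.2 a ha)
  simpa [AlgEquiv.mul_apply] using this

/-- Two Frobenius elements differ by an inertia element. -/
theorem inv_mul_mem_inertia {A : ValuationSubring L} {σ σ' : L ≃ₐ[K] L} {q : ℕ}
    (hσ : A.IsFrobeniusAt σ q) (hσ' : A.IsFrobeniusAt σ' q) :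
    σ⁻¹ * σ' ∈ A.inertiaSubgroupIn K := by
  rw [isFrobeniusAt_iff] at hσ hσ'
  rw [mem_inertia_iff]
  refine ⟨by rw [mul_smul, hσ'.1, inv_smul_eq_iff, hσ.1], fun a ha => ?_⟩
  rw [← apply_mem_nonunits_iff hσ.1, map_sub]
  have := sub_mem (hσ'.2 a ha) (hσ.2 a ha)
  simpa [AlgEquiv.mul_apply, AlgEquiv.aut_inv] using this

/-- A Frobenius at `q` raises roots of unity of order prime to `q` to the `q`-th power. -/
theorem apply_rootOfUnity_of_isFrobeniusAt {A : ValuationSubring L} {σ : L ≃ₐ[K] L} {q m : ℕ}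
    (hσ : A.IsFrobeniusAt σ q) (hq : q.Prime) (hA : A.LiesOverPrime q) (hm : ¬ q ∣ m) {ζ : L}
    (hζ : ζ ^ m = 1) : σ ζ = ζ ^ q := by
  classical
  have hm0 : 0 < m := Nat.pos_of_ne_zero fun h => hm (h ▸ dvd_zero q)
  have hζ0 : ζ ≠ 0 := by
    rintro rfl
    simp [hm0.ne'] at hζ
  have hζA : ζ ∈ A := mem_of_isIntegral A
    ⟨Polynomial.X ^ m - 1, Polynomial.monic_X_pow_sub_C 1 hm0.ne', by simp [hζ]⟩
  have hdiff := ((isFrobeniusAt_iff A σ q).mp hσ).2 ζ hζA
  set η := σ ζ * (ζ ^ q)⁻¹ with hη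
  have hinv : (ζ ^ q)⁻¹ ∈ A := by
    have h1 : ζ⁻¹ = ζ ^ (m - 1) := by
      refine inv_eq_of_mul_eq_one_right ?_
      rw [← pow_succ', Nat.sub_add_cancel hm0, hζ]
    rw [← inv_pow, h1]
    exact pow_mem (pow_mem hζA _) _
  have hη1 : η - 1 ∈ A.nonunits := by
    have := mul_mem_nonunits_left A hdiff hinv
    rwa [sub_mul, mul_inv_cancel₀ (pow_ne_zero q hζ0)] at this
  have hηm : η ^ m = 1 := by
    rw [hη, mul_pow, ← map_pow, hζ, map_one, inv_pow, ← pow_mul, mul_comm q m, pow_mul, hζ]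
    simp
  by_contra hne
  have hη_ne : η ≠ 1 := fun h => hne (by
    rw [hη] at h
    exact ((eq_mul_inv_iff_mul_eq₀ (pow_ne_zero q hζ0)).mp h.symm).symm.trans (one_mul _))
  have hsum : ∑ i ∈ Finset.range m, η ^ i = 0 := by
    have := geom_sum_mul η m
    rw [hηm, sub_self] at this
    exact (mul_eq_zero.mp this).resolve_right (sub_ne_zero.mpr hη_ne)
  apply hm
  rw [← natCast_mem_nonunits_iff A hq hA]
  have hηA : η ∈ A := mul_mem ((apply_mem_iff ((isFrobeniusAt_iff A σ q).mp hσ).1 ζ).mpr hζA) hinv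
  have hterm : ∀ i, η ^ i - 1 ∈ A.nonunits := fun i => by
    rw [← geom_sum_mul η i]
    exact mul_mem_nonunits_right A (sum_mem fun j _ => pow_mem hηA j) hη1
  have := neg_mem (sum_mem (t := Finset.range m) fun i _ => hterm i)
  simpa [hsum] using this

end General

section Integral

variable {K L : Type*} [Field K] [Field L] [Algebra K L] [CharZero L] [Algebra.IsAlgebraic ℚ L]

theorem smul_eq_of_forall_isIntegral {A : ValuationSubring L} {σ : L ≃ₐ[K] L}
    (h : ∀ x : L, IsIntegral ℤ x → (σ x ∈ A.nonunits ↔ x ∈ A.nonunits)) : σ • A = A := by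
  refine eq_of_forall_isIntegral fun x hx => ?_
  rw [mem_nonunits_smul_iff, ← h _ (isIntegral_apply σ.symm hx), AlgEquiv.apply_symm_apply]

/-- Inertia can be tested on algebraic integers. -/
theorem mem_inertia_iff_isIntegral (A : ValuationSubring L) (σ : L ≃ₐ[K] L) :
    σ ∈ A.inertiaSubgroupIn K ↔ ∀ x : L, IsIntegral ℤ x → σ x - x ∈ A.nonunits := by
  rw [mem_inertia_iff]
  refine ⟨fun h x hx => h.2 x (mem_of_isIntegral A hx), fun h => ⟨?_, fun a ha => ?_⟩⟩
  · refine smul_eq_of_forall_isIntegral fun x hx => ⟨fun h' => ?_, fun h' => ?_⟩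
    · simpa using sub_mem h' (h x hx)
    · simpa using add_mem (h x hx) h'
  · obtain ⟨b, s, hb, hs, hsA, hab⟩ := exists_mul_eq_of_mem A ha
    have key : (σ a - a) * σ s = (σ b - b) - a * (σ s - s) := by
      rw [← hab, map_mul]
      ring
    have hmem : (σ a - a) * σ s ∈ A.nonunits := key ▸
      sub_mem (h b hb) (mul_mem_nonunits_right A ha (h s hs))
    have hσs : σ s ∉ A.nonunits := fun h' => hsA (by simpa using sub_mem h' (h s hs))
    have hσs0 : σ s ≠ 0 := fun h' => hσs (h' ▸ zero_mem _)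
    have := mul_mem_nonunits_left A hmem (inv_mem_of_mem_of_notMem_nonunits A hσs)
    rwa [mul_inv_cancel_right₀ hσs0] at this

/-- Being a Frobenius can be tested on algebraic integers. -/
theorem isFrobeniusAt_iff_isIntegral (A : ValuationSubring L) (σ : L ≃ₐ[K] L) {q : ℕ}
    (hq : q ≠ 0) :
    A.IsFrobeniusAt σ q ↔ ∀ x : L, IsIntegral ℤ x → σ x - x ^ q ∈ A.nonunits := by
  rw [isFrobeniusAt_iff]
  refine ⟨fun h x hx => h.2 x (mem_of_isIntegral A hx), fun h => ⟨?_, fun a ha => ?_⟩⟩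
  · refine smul_eq_of_forall_isIntegral fun x hx => ⟨fun h' => ?_, fun h' => ?_⟩
    · exact mem_nonunits_of_pow_mem A (mem_of_isIntegral A hx) (n := q)
        (by simpa using sub_mem h' (h x hx))
    · simpa using add_mem (h x hx) (pow_mem_nonunits A hq h')
  · obtain ⟨b, s, hb, hs, hsA, hab⟩ := exists_mul_eq_of_mem A ha
    have key : (σ a - a ^ q) * σ s = (σ b - b ^ q) - a ^ q * (σ s - s ^ q) := by
      rw [← hab, map_mul, mul_pow]
      ring
    have hmem : (σ a - a ^ q) * σ s ∈ A.nonunits := key ▸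
      sub_mem (h b hb) (mul_mem_nonunits_right A (pow_mem ha q) (h s hs))
    have hσs : σ s ∉ A.nonunits := fun h' => hsA
      (mem_nonunits_of_pow_mem A (mem_of_isIntegral A hs) (by simpa using sub_mem h' (h s hs)))
    have hσs0 : σ s ≠ 0 := fun h' => hσs (h' ▸ zero_mem _)
    have := mul_mem_nonunits_left A hmem (inv_mem_of_mem_of_notMem_nonunits A hσs)
    rwa [mul_inv_cancel_right₀ hσs0] at this

end Integral

section AlgClosure

local notation "ℚbar" => AlgebraicClosure ℚ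
local notation "Γ" => AlgebraicClosure ℚ ≃ₐ[ℚ] AlgebraicClosure ℚ
local notation "Zbar" => integralClosure ℤ (AlgebraicClosure ℚ)

/-- The trace of the maximal ideal of `A` on the algebraic integers. -/
def centre (A : ValuationSubring ℚbar) : Ideal Zbar where
  carrier := {x | (x : ℚbar) ∈ A.nonunits}
  add_mem' hx hy := by simpa using add_mem (Set.mem_ofPred.mp hx) hy
  zero_mem' := by simp
  smul_mem' r x hx := by
    simpa using mul_mem_nonunits_right A (mem_of_isIntegral A r.2) (Set.mem_ofPred.mp hx)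

theorem mem_centre (A : ValuationSubring ℚbar) (x : Zbar) :
    x ∈ centre A ↔ (x : ℚbar) ∈ A.nonunits :=
  Iff.rfl

instance centre_isPrime (A : ValuationSubring ℚbar) : (centre A).IsPrime where
  ne_top' := (Ideal.ne_top_iff_one _).mpr fun h =>
    one_notMem_nonunits A (by simpa [mem_centre] using h)
  mem_or_mem' {x y} h :=
    mem_nonunits_or_mem_nonunits A (mem_of_isIntegral A x.2) (mem_of_isIntegral A y.2)
      (by simpa [mem_centre] using h)

theorem centre_smul (σ : Γ) (A : ValuationSubring ℚbar) : σ • centre A = centre (σ • A) := by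
  ext x
  rw [Ideal.mem_pointwise_smul_iff_inv_smul_mem, mem_centre, mem_centre, mem_nonunits_smul_iff]
  rfl

theorem centre_injective {A A' : ValuationSubring ℚbar} (h : centre A = centre A') : A = A' :=
  eq_of_forall_isIntegral fun x hx => SetLike.ext_iff.mp h ⟨x, hx⟩

/-- Transitivity of a closed subgroup `H` on the places with a given trace on the `H`-invariant
algebraic integers. -/
theorem exists_mem_smul_eq (H : Subgroup Γ) (hH : IsClosed (H : Set Γ))
    (A A' : ValuationSubring ℚbar)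
    (h : ∀ x : ℚbar, IsIntegral ℤ x → (∀ σ ∈ H, σ x = x) →
      (x ∈ A.nonunits ↔ x ∈ A'.nonunits)) :
    ∃ σ ∈ H, σ • A = A' := by
  let : TopologicalSpace Zbar := ⊥
  have : DiscreteTopology Zbar := ⟨rfl⟩
  have : CompactSpace H := isCompact_iff_compactSpace.mp hH.isCompact
  have : ContinuousSMul H Zbar := continuousSMul_iff_stabilizer_isOpen.mpr fun x => by
    convert (stabilizer_isOpen_of_isIntegral (K := ℚ) (x : ℚbar)).preimage continuous_subtype_val
    ext g
    exact Subtype.ext_iff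
  let R := FixedPoints.subalgebra ℤ Zbar H
  have : Algebra.IsInvariant R Zbar H := ⟨fun b hb => ⟨⟨b, hb⟩, rfl⟩⟩
  obtain ⟨g, hg⟩ := Algebra.IsInvariant.exists_smul_of_under_eq_of_profinite
    (A := R) (G := H) (centre A) (centre A') (by
      ext x
      exact h _ (x : Zbar).2 fun σ hσ => congrArg Subtype.val (x.2 ⟨σ, hσ⟩))
  refine ⟨g, g.2, centre_injective ?_⟩
  rw [← centre_smul, hg]
  rfl

/-- A closed subgroup `H` realises every automorphism of the residue ring at `A` that is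
trivial on the `H`-invariant algebraic integers. -/
theorem exists_mem_quotient_apply_eq (H : Subgroup Γ) (hH : IsClosed (H : Set Γ))
    (A : ValuationSubring ℚbar) (e : (Zbar ⧸ centre A) ≃+* (Zbar ⧸ centre A))
    (he : ∀ x : Zbar, (∀ σ ∈ H, σ (x : ℚbar) = x) →
      e (Ideal.Quotient.mk _ x) = Ideal.Quotient.mk _ x) :
    ∃ σ ∈ H, ∀ x : Zbar, Ideal.Quotient.mk (centre A) (σ • x) = e (Ideal.Quotient.mk _ x) := by
  let : TopologicalSpace Zbar := ⊥
  have : DiscreteTopology Zbar := ⟨rfl⟩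
  have : CompactSpace H := isCompact_iff_compactSpace.mp hH.isCompact
  have : ContinuousSMul H Zbar := continuousSMul_iff_stabilizer_isOpen.mpr fun x => by
    convert (stabilizer_isOpen_of_isIntegral (K := ℚ) (x : ℚbar)).preimage continuous_subtype_val
    ext g
    exact Subtype.ext_iff
  let R := FixedPoints.subalgebra ℤ Zbar H
  have : Algebra.IsInvariant R Zbar H := ⟨fun b hb => ⟨⟨b, hb⟩, rfl⟩⟩
  let e' : (Zbar ⧸ centre A) ≃ₐ[R ⧸ (centre A).under R] Zbar ⧸ centre A :=
    AlgEquiv.ofRingEquiv (f := e) fun r => by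
      obtain ⟨r, rfl⟩ := Ideal.Quotient.mk_surjective r
      exact he r fun σ hσ => congrArg Subtype.val (r.2 ⟨σ, hσ⟩)
  obtain ⟨⟨g, hg⟩, hg'⟩ := Ideal.Quotient.stabilizerHom_surjective_of_profinite
    (G := H) ((centre A).under R) (centre A) e'
  exact ⟨g, g.2, fun x => DFunLike.congr_fun hg' (Ideal.Quotient.mk _ x)⟩

theorem exists_intCast_of_forall_apply_eq {x : ℚbar} (hx : IsIntegral ℤ x)
    (h : ∀ σ : Γ, σ x = x) : ∃ n : ℤ, x = n := by
  obtain ⟨r, hr⟩ := (InfiniteGalois.mem_range_algebraMap_iff_fixed x).mpr h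
  rw [← hr] at hx
  obtain ⟨n, hn⟩ := IsIntegrallyClosed.algebraMap_eq_of_integral
    ((isIntegral_algHom_iff (algebraMap ℚ ℚbar).toIntAlgHom (algebraMap ℚ ℚbar).injective).mp hx)
  exact ⟨n, by rw [← hr, ← hn]; simp⟩

/-- The absolute Galois group is transitive on the places over a prime. -/
theorem exists_smul_eq_of_liesOverPrime {q : ℕ} (hq : q.Prime) {A A' : ValuationSubring ℚbar}
    (hA : A.LiesOverPrime q) (hA' : A'.LiesOverPrime q) : ∃ σ : Γ, σ • A = A' := by
  obtain ⟨σ, -, hσ⟩ := exists_mem_smul_eq ⊤ isClosed_univ A A' fun x hx hfix => by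
    obtain ⟨n, rfl⟩ := exists_intCast_of_forall_apply_eq hx fun σ => hfix σ trivial
    rw [intCast_mem_nonunits_iff A hq hA, intCast_mem_nonunits_iff A' hq hA']
  exact ⟨σ, hσ⟩

/-- Frobenius elements exist at every place over every prime. -/
theorem exists_isFrobeniusAt {q : ℕ} (hq : q.Prime) {A : ValuationSubring ℚbar}
    (hA : A.LiesOverPrime q) : ∃ σ : Γ, A.IsFrobeniusAt σ q := by
  have hqmem : (q : Zbar) ∈ centre A := by
    rw [mem_centre]
    simpa [ValuationSubring.LiesOverPrime] using hA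
  have : CharP (Zbar ⧸ centre A) q := (CharP.charP_iff_prime_eq_zero hq).mpr (by
    rw [← map_natCast (Ideal.Quotient.mk (centre A)), Ideal.Quotient.eq_zero_iff_mem]
    exact hqmem)
  have : ExpChar (Zbar ⧸ centre A) q := .prime hq
  have hbij : Function.Bijective (frobenius (Zbar ⧸ centre A) q) := by
    refine ⟨frobenius_inj _ q, fun y => ?_⟩
    obtain ⟨b, rfl⟩ := Ideal.Quotient.mk_surjective y
    obtain ⟨c, hc⟩ := IsAlgClosed.exists_pow_nat_eq (b : ℚbar) hq.pos
    have hci : IsIntegral ℤ c := IsIntegral.of_pow hq.pos (hc ▸ b.2)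
    refine ⟨Ideal.Quotient.mk _ ⟨c, hci⟩, ?_⟩
    rw [frobenius_def, ← map_pow]
    exact congrArg _ (Subtype.ext hc)
  obtain ⟨σ, -, hσ⟩ := exists_mem_quotient_apply_eq ⊤ isClosed_univ A
    (RingEquiv.ofBijective _ hbij) fun x hfix => by
      obtain ⟨n, hn⟩ := exists_intCast_of_forall_apply_eq x.2 fun σ => hfix σ trivial
      have hx : x = (n : Zbar) := Subtype.ext (by simpa using hn)
      rw [hx, RingEquiv.ofBijective_apply, frobenius_def, map_intCast]
      exact (frobenius_def _ _).symm.trans (map_intCast (frobenius (Zbar ⧸ centre A) q) n)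
  refine ⟨σ, (isFrobeniusAt_iff_isIntegral A σ hq.ne_zero).mpr fun x hx => ?_⟩
  have h := hσ ⟨x, hx⟩
  rw [RingEquiv.ofBijective_apply, frobenius_def, ← map_pow, Ideal.Quotient.eq, mem_centre] at h
  simpa [AlgEquiv.smul_def] using h

/-- If `σ₀` acts trivially modulo `A` on the integers of `F`, then some element of inertia at `A`
agrees with `σ₀` on `F`. -/
theorem exists_inertia_eqOn (F : IntermediateField ℚ ℚbar) (A : ValuationSubring ℚbar) (σ₀ : Γ)
    (h : ∀ x ∈ F, IsIntegral ℤ x → σ₀ x - x ∈ A.nonunits) :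
    ∃ σ : Γ, σ ∈ A.inertiaSubgroupIn ℚ ∧ ∀ x ∈ F, σ x = σ₀ x := by
  have hfix : ∀ x : ℚbar, (∀ τ ∈ F.fixingSubgroup, τ x = x) → x ∈ F := fun x hx => by
    rw [← InfiniteGalois.fixedField_fixingSubgroup F]
    exact fun τ => hx τ τ.2
  have hfixF : ∀ τ ∈ F.fixingSubgroup, ∀ x ∈ F, τ x = x := fun τ hτ x hx =>
    (mem_fixingSubgroup_iff Γ).mp hτ x hx
  have hcl := InfiniteGalois.fixingSubgroup_isClosed F
  obtain ⟨g, hg, hgA⟩ := exists_mem_smul_eq F.fixingSubgroup hcl A (σ₀⁻¹ • A) fun x hx hfx => by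
    have hxF := hfix x hfx
    rw [mem_nonunits_smul_iff, show (σ₀⁻¹ : Γ).symm x = σ₀ x from rfl]
    refine ⟨fun h' => ?_, fun h' => ?_⟩
    · simpa using add_mem (h x hxF hx) h'
    · simpa using sub_mem h' (h x hxF hx)
  have hσ1 : (σ₀ * g) • A = A := by rw [mul_smul, hgA, smul_inv_smul]
  let e : (Zbar ⧸ centre A) ≃+* (Zbar ⧸ centre A) :=
    Ideal.quotientEquiv (centre A) (centre A) (MulSemiringAction.toRingEquiv Γ Zbar (σ₀ * g)) (by
      have := (centre_smul (σ₀ * g) A).trans (congrArg centre hσ1)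
      exact this.symm)
  obtain ⟨k, hk, hkA⟩ := exists_mem_quotient_apply_eq F.fixingSubgroup hcl A e fun x hfx => by
    have hxF := hfix _ hfx
    change Ideal.Quotient.mk _ ((σ₀ * g) • x) = _
    rw [Ideal.Quotient.eq, mem_centre]
    simpa [AlgEquiv.smul_def, AlgEquiv.mul_apply, hfixF g hg _ hxF] using h _ hxF x.2
  refine ⟨σ₀ * g * k⁻¹, (mem_inertia_iff_isIntegral A _).mpr fun x hx => ?_, fun x hx => ?_⟩
  · have h' := hkA ⟨k⁻¹ x, isIntegral_apply _ hx⟩
    change _ = Ideal.Quotient.mk _ ((σ₀ * g) • (⟨k⁻¹ x, _⟩ : Zbar)) at h'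
    rw [Ideal.Quotient.eq, mem_centre] at h'
    have h'' := neg_mem h'
    simpa [AlgEquiv.smul_def, AlgEquiv.mul_apply, AlgEquiv.aut_inv, neg_sub] using h''
  · simp [AlgEquiv.mul_apply, hfixF _ (inv_mem hk) x hx, hfixF g hg x hx]

end AlgClosure

end Fermat.Agent.Gal
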