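import Fermat.Agent.Gal.Frobenius

/-!
# Residue fields of places

Residue fields of places of an algebraically closed algebraic extension of `ℚ` are algebraic
over the prime field (`isAlgebraic_residueField`) and algebraically closed; the valuation has
rank one; simple roots lift and are fixed by inertia (`exists_root_fixed_of_simple_root`).
-/

set_option autoImplicit false

namespace Fermat.Agent.Gal

open Polynomial
open scoped Pointwise

section AlgClosedField

variable {L : Type*} [Field L]

/-- The residue field of a valuation subring of an algebraically closed field is algebraically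
closed. -/
theorem isAlgClosed_residueField [IsAlgClosed L] (A : ValuationSubring L) :
    IsAlgClosed (IsLocalRing.ResidueField A) := by
  refine IsAlgClosed.of_exists_root _ fun p hp hirr => ?_
  obtain ⟨q, hq, hdeg, hqm⟩ := lifts_and_degree_eq_and_monic
    (mem_lifts_of_surjective (f := IsLocalRing.residue A) IsLocalRing.residue_surjective p) hp
  have hd : q.degree ≠ 0 := by
    rw [hdeg]
    exact (degree_pos_of_irreducible hirr).ne'
  obtain ⟨z, hz⟩ := IsAlgClosed.exists_root (q.map (algebraMap A L))
    (by rwa [hqm.degree_map])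
  have hzA : IsIntegral A z := ⟨q, hqm, by rwa [IsRoot, eval_map] at hz⟩
  obtain ⟨y, hy⟩ := IsIntegrallyClosed.algebraMap_eq_of_integral hzA
  refine ⟨IsLocalRing.residue A y, ?_⟩
  have h0 : q.eval y = 0 := by
    apply (FaithfulSMul.algebraMap_injective A L)
    rw [map_zero, ← eval₂_at_apply, hy, ← eval_map]
    exact hz
  rw [← hq, eval_map, eval₂_at_apply, h0, map_zero]

/-- A root of a monic polynomial over `A` lifting a given root of the reduction. -/
theorem exists_root_residue_eq [IsAlgClosed L] (A : ValuationSubring L) {p : A[X]} (hp : p.Monic)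
    {c : IsLocalRing.ResidueField A} (hc : (p.map (IsLocalRing.residue A)).IsRoot c) :
    ∃ y : A, p.IsRoot y ∧ IsLocalRing.residue A y = c := by
  classical
  obtain ⟨c, rfl⟩ := IsLocalRing.residue_surjective c
  rw [IsRoot, eval_map, eval₂_at_apply, IsLocalRing.residue_eq_zero_iff] at hc
  have hsplit := IsAlgClosed.splits (p.map (algebraMap A L))
  have hprod := hsplit.eq_prod_roots_of_monic (hp.map _)
  by_contra hne
  simp only [not_exists, not_and] at hne
  have hroots : ∀ z ∈ (p.map (algebraMap A L)).roots,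
      ((c : L) - z) ∈ A ∧ (c : L) - z ∉ A.nonunits := by
    intro z hz
    obtain ⟨-, hz⟩ := mem_roots'.1 hz
    have hzA : IsIntegral A z := ⟨p, hp, by rwa [IsRoot, eval_map] at hz⟩
    obtain ⟨y, rfl⟩ := IsIntegrallyClosed.algebraMap_eq_of_integral hzA
    refine ⟨sub_mem c.2 y.2, fun hmem => hne y ?_ ?_⟩
    · apply (FaithfulSMul.algebraMap_injective A L)
      rw [map_zero, ← eval₂_at_apply, ← eval_map]
      exact hz
    · rw [residue_eq_residue_iff]
      simpa using neg_mem hmem
  have heval : ((p.eval c : A) : L) =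
      (((p.map (algebraMap A L)).roots.map fun z => (c : L) - z)).prod := by
    have := congrArg (eval (c : L)) hprod
    rw [eval_map, eval_multiset_prod, Multiset.map_map] at this
    simp only [Function.comp_def, eval_sub, eval_X, eval_C] at this
    rw [← this]
    exact (eval₂_at_apply (algebraMap A L) c).symm
  rw [← A.coe_mem_nonunits_iff, heval] at hc
  suffices hs : ∀ s : Multiset L, (∀ z ∈ s, z ∈ A ∧ z ∉ A.nonunits) →
      s.prod ∈ A ∧ s.prod ∉ A.nonunits by
    exact (hs _ fun z hz => by
      obtain ⟨w, hw, rfl⟩ := Multiset.mem_map.1 hz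
      exact hroots w hw).2 hc
  intro s
  induction s using Multiset.induction_on with
  | empty => exact fun _ => ⟨by simp, by simpa using one_notMem_nonunits A⟩
  | cons a s ih =>
    intro hall
    obtain ⟨h1, h2⟩ := ih fun z hz => hall z (Multiset.mem_cons_of_mem hz)
    obtain ⟨h3, h4⟩ := hall a (Multiset.mem_cons_self a s)
    rw [Multiset.prod_cons]
    exact ⟨mul_mem h3 h1, fun h => (mem_nonunits_or_mem_nonunits A h3 h1 h).elim h4 h2⟩

variable {K : Type*} [Field K] [Algebra K L]

/-- **Hensel uniqueness**: a simple root (modulo `A`) of a polynomial with inertia-fixed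
coefficients in `A` is fixed by inertia. -/
theorem apply_eq_of_simple_root {A : ValuationSubring L} {σ : L ≃ₐ[K] L}
    (hσ : σ ∈ A.inertiaSubgroupIn K) {p : L[X]} (hpA : ∀ i, p.coeff i ∈ A)
    (hfix : ∀ i, σ (p.coeff i) = p.coeff i) {a : L} (ha : a ∈ A) (hroot : p.IsRoot a)
    (hsimple : p.derivative.eval a ∉ A.nonunits) : σ a = a := by
  obtain ⟨q, rfl⟩ : p ∈ lifts (algebraMap A L) :=
    (lifts_iff_coeff_lifts p).2 fun i => ⟨⟨_, hpA i⟩, rfl⟩
  simp only [coe_mapRingHom] at *
  obtain ⟨hstab, hI⟩ := (mem_inertia_iff A σ).1 hσ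
  let a' : A := ⟨a, ha⟩
  have hq : q.IsRoot a' := by
    apply (FaithfulSMul.algebraMap_injective A L)
    rw [map_zero, ← eval₂_at_apply, ← eval_map]
    exact hroot
  obtain ⟨g, hg⟩ := dvd_iff_isRoot.2 hq
  have hσroot : (q.map (algebraMap A L)).eval (σ a) = 0 := by
    have h1 : (q.map (algebraMap A L)).map σ.toAlgHom.toRingHom = q.map (algebraMap A L) :=
      Polynomial.ext fun i => by rw [coeff_map]; exact hfix i
    rw [← h1, eval_map]
    exact (eval₂_hom σ.toAlgHom.toRingHom a).trans (by rw [hroot.eq_zero, map_zero])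
  have hσA : σ a ∈ A := (apply_mem_iff hstab a).2 ha
  let b : A := ⟨σ a, hσA⟩
  have hb : q.eval b = 0 := by
    apply (FaithfulSMul.algebraMap_injective A L)
    rw [map_zero, ← eval₂_at_apply, ← eval_map]
    exact hσroot
  rw [hg, eval_mul, eval_sub, eval_X, eval_C, mul_eq_zero] at hb
  rcases hb with hb | hb
  · exact congrArg Subtype.val (sub_eq_zero.1 hb)
  exfalso
  apply hsimple
  have hd : (q.map (algebraMap A L)).derivative.eval a = ((g.eval a' : A) : L) := by
    rw [derivative_map, hg, derivative_mul, Polynomial.map_add, Polynomial.map_mul,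
      Polynomial.map_mul, eval_add, eval_mul, eval_mul, derivative_sub, derivative_X, derivative_C,
      sub_zero, Polynomial.map_one, eval_one, one_mul, Polynomial.map_sub, map_X, map_C, eval_sub,
      eval_X, eval_C]
    have : a - algebraMap A L a' = 0 := sub_self _
    rw [this, zero_mul, add_zero, eval_map]
    exact eval₂_at_apply (algebraMap A L) a'
  rw [hd, A.coe_mem_nonunits_iff, ← IsLocalRing.residue_eq_zero_iff]
  have hres : IsLocalRing.residue A b = IsLocalRing.residue A a' :=
    (residue_eq_residue_iff A _ _).2 (hI a ha)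
  rw [← eval₂_at_apply, ← hres, eval₂_at_apply, hb, map_zero]

/-- **Hensel for the fixed field of inertia**: a simple root of the reduction of a monic
polynomial with inertia-fixed coefficients lifts to a root fixed by inertia. -/
theorem exists_root_fixed_of_simple_root [IsAlgClosed L] (A : ValuationSubring L) {p : A[X]}
    (hp : p.Monic) (hfix : ∀ i, ∀ σ ∈ A.inertiaSubgroupIn K, σ (p.coeff i : L) = p.coeff i)
    {c : IsLocalRing.ResidueField A} (hc : (p.map (IsLocalRing.residue A)).IsRoot c)
    (hc' : ¬ (p.map (IsLocalRing.residue A)).derivative.IsRoot c) :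
    ∃ y : A, p.IsRoot y ∧ IsLocalRing.residue A y = c ∧
      ∀ σ ∈ A.inertiaSubgroupIn K, σ (y : L) = y := by
  obtain ⟨y, hy, rfl⟩ := exists_root_residue_eq A hp hc
  refine ⟨y, hy, rfl, fun σ hσ => apply_eq_of_simple_root (p := p.map (algebraMap A L)) hσ
    (fun i => by rw [coeff_map]; exact (p.coeff i).2) (fun i => by
      rw [coeff_map]; exact hfix i σ hσ) y.2 ?_ ?_⟩
  · show (p.map (algebraMap A L)).eval (algebraMap A L y) = 0
    rw [eval_map, eval₂_at_apply, hy.eq_zero, map_zero]
  · show (p.map (algebraMap A L)).derivative.eval (algebraMap A L y) ∉ A.nonunits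
    intro h
    rw [derivative_map, eval_map, eval₂_at_apply] at h
    apply hc'
    rw [IsRoot, derivative_map, eval_map, eval₂_at_apply, IsLocalRing.residue_eq_zero_iff,
      ← A.coe_mem_nonunits_iff]
    exact h

end AlgClosedField

section Algebraic

theorem isIntegral_of_isIntegral_int {R S : Type*} [CommRing R] [CommRing S] [Algebra R S] {x : S}
    [Algebra ℤ S] (h : IsIntegral ℤ x) : IsIntegral R x := by
  obtain ⟨p, hm, hp⟩ := h
  refine ⟨p.map (Int.castRingHom R), hm.map _, ?_⟩
  rw [eval₂_map, RingHom.ext_int ((algebraMap R S).comp (Int.castRingHom R)) (algebraMap ℤ S)]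
  exact hp

theorem isIntegral_int_of_isIntegral_zmod {q : ℕ} {S : Type*} [CommRing S] [Algebra (ZMod q) S]
    [Algebra ℤ S] {x : S} (h : IsIntegral (ZMod q) x) : IsIntegral ℤ x := by
  obtain ⟨p, hm, hp⟩ := h
  obtain ⟨r, hr, -, hrm⟩ := lifts_and_natDegree_eq_and_monic
    (mem_lifts_of_surjective (f := Int.castRingHom (ZMod q)) ZMod.intCast_surjective p) hm
  refine ⟨r, hrm, ?_⟩
  rw [← hr, eval₂_map,
    RingHom.ext_int ((algebraMap (ZMod q) S).comp (Int.castRingHom (ZMod q)))
      (algebraMap ℤ S)] at hp
  exact hp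

variable {L : Type*} [Field L] [CharZero L] [Algebra.IsAlgebraic ℚ L]

omit [CharZero L] [Algebra.IsAlgebraic ℚ L] in
theorem charP_residueField (A : ValuationSubring L) {q : ℕ} (hq : q.Prime)
    (hA : A.LiesOverPrime q) : CharP (IsLocalRing.ResidueField A) q :=
  (CharP.charP_iff_prime_eq_zero hq).2 (by
    rw [← map_natCast (IsLocalRing.residue A), IsLocalRing.residue_eq_zero_iff,
      ← A.coe_mem_nonunits_iff]
    exact hA)

/-- The residue field at a place over a prime is integral over `ℤ`. -/
theorem isIntegral_residueField (A : ValuationSubring L) {q : ℕ} (hq : q.Prime)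
    (hA : A.LiesOverPrime q) (x : IsLocalRing.ResidueField A) : IsIntegral ℤ x := by
  have := charP_residueField A hq hA
  have : Fact q.Prime := ⟨hq⟩
  let : Algebra (ZMod q) (IsLocalRing.ResidueField A) := ZMod.algebra _ q
  have h0 : ∀ (z : L) (hzA : z ∈ A), IsIntegral ℤ z →
      IsIntegral ℤ (IsLocalRing.residue A ⟨z, hzA⟩) := by
    intro z hzA hz
    have h1 : IsIntegral ℤ (⟨z, hzA⟩ : A) :=
      (isIntegral_algHom_iff (algebraMap A L).toIntAlgHom
        (FaithfulSMul.algebraMap_injective A L)).1 hz
    exact map_isIntegral_int (IsLocalRing.residue A) h1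
  obtain ⟨x, rfl⟩ := IsLocalRing.residue_surjective x
  obtain ⟨b, s, hb, hs, hsA, hxs⟩ := exists_mul_eq_of_mem A x.2
  let b' : A := ⟨b, mem_of_isIntegral A hb⟩
  let s' : A := ⟨s, mem_of_isIntegral A hs⟩
  have hs0 : IsLocalRing.residue A s' ≠ 0 := by
    rw [Ne, IsLocalRing.residue_eq_zero_iff, ← A.coe_mem_nonunits_iff]
    exact hsA
  have hx : IsLocalRing.residue A x = IsLocalRing.residue A b' / IsLocalRing.residue A s' := by
    rw [eq_div_iff hs0, ← map_mul]
    exact congrArg _ (Subtype.ext hxs)
  have hkey : IsIntegral (ZMod q) (IsLocalRing.residue A x) := by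
    rw [hx]
    exact IsIntegral.mul (isIntegral_of_isIntegral_int (h0 b b'.2 hb))
      (isIntegral_of_isIntegral_int (h0 s s'.2 hs)).inv
  exact isIntegral_int_of_isIntegral_zmod hkey

/-- The residue field at a place over `q` is algebraic over `ZMod q` (for any algebra structure). -/
theorem isAlgebraic_residueField (A : ValuationSubring L) {q : ℕ} [Fact q.Prime]
    (hA : A.LiesOverPrime q) [Algebra (ZMod q) (IsLocalRing.ResidueField A)] :
    Algebra.IsAlgebraic (ZMod q) (IsLocalRing.ResidueField A) :=
  ⟨fun x => (isIntegral_of_isIntegral_int (isIntegral_residueField A Fact.out hA x)).isAlgebraic⟩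

/-- A place over a prime is a maximal proper valuation subring: the valuation has rank one. -/
theorem eq_or_eq_top_of_le {A B : ValuationSubring L} {q : ℕ} (hq : q.Prime)
    (hA : A.LiesOverPrime q) (h : A ≤ B) : B = A ∨ B = ⊤ := by
  by_cases hB : B = ⊤
  · exact Or.inr hB
  refine Or.inl (le_antisymm (le_of_forall_isIntegral fun x hx hxA => ?_) h)
  obtain ⟨p, hp, hBp⟩ := exists_prime_of_ne_top hB
  obtain rfl : p = q :=
    prime_mem_nonunits_eq A hp hq (ValuationSubring.nonunits_le_nonunits.2 h hBp) hA
  have : Fact p.Prime := ⟨hp⟩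
  -- the residue of `x` in `B` is algebraic over the prime field; were it nonzero, so is that in `A`
  by_contra hxB
  have := charP_residueField B hp hBp
  let : Algebra (ZMod p) (IsLocalRing.ResidueField B) := ZMod.algebra _ p
  have := isAlgebraic_residueField B hBp
  let x' : B := ⟨x, mem_of_isIntegral B hx⟩
  have hu0 : IsLocalRing.residue B x' ≠ 0 := by
    rw [Ne, IsLocalRing.residue_eq_zero_iff, ← B.coe_mem_nonunits_iff]
    exact hxB
  let u := IsLocalRing.residue B x'
  let E := IntermediateField.adjoin (ZMod p) ({u} : Set (IsLocalRing.ResidueField B))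
  have : FiniteDimensional (ZMod p) E :=
    IntermediateField.adjoin.finiteDimensional (Algebra.IsIntegral.isIntegral u)
  have : Finite E := Module.finite_of_finite (ZMod p)
  have := Fintype.ofFinite E
  let m := Fintype.card E
  have hm : 1 < m := Fintype.one_lt_card
  have hpow : u ^ (m - 1) = 1 :=
    congrArg Subtype.val (FiniteField.pow_card_sub_one_eq_one
      (⟨u, IntermediateField.mem_adjoin_simple_self _ u⟩ : E)
      (fun h => hu0 (congrArg Subtype.val h)))
  have h1 : x ^ (m - 1) - 1 ∈ B.nonunits := by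
    have := (residue_eq_residue_iff B (x' ^ (m - 1)) 1).1 (by rw [map_pow, map_one]; exact hpow)
    simpa using this
  have h2 : x ^ (m - 1) ∈ A.nonunits := pow_mem_nonunits A (by omega) hxA
  apply one_notMem_nonunits A
  have h3 := sub_mem h2 (ValuationSubring.nonunits_le_nonunits.2 h h1)
  simpa using h3

/-- Rank one: powers of a nonunit get arbitrarily small. -/
theorem exists_pow_div_mem_nonunits {A : ValuationSubring L} {q : ℕ} (hq : q.Prime)
    (hA : A.LiesOverPrime q) {x y : L} (hx : x ∈ A.nonunits) (hy : y ≠ 0) :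
    ∃ n : ℕ, x ^ n / y ∈ A.nonunits := by
  by_contra hno
  simp only [not_exists, ValuationSubring.mem_nonunits_iff, map_div₀, map_pow, not_lt] at hno
  have hvy : 0 < A.valuation y := (Valuation.pos_iff _).2 hy
  have hyle : ∀ n : ℕ, A.valuation y ≤ A.valuation x ^ n := fun n =>
    (one_le_div₀ hvy).1 (hno n)
  have hx0 : x ≠ 0 := by
    rintro rfl
    have := hyle 1
    rw [map_zero, pow_one] at this
    exact hvy.not_ge this
  have hvx : 0 < A.valuation x := (Valuation.pos_iff _).2 hx0
  have hxlt : A.valuation x < 1 := A.mem_nonunits_iff.1 hx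
  let S : Subring L :=
    { carrier := {z | ∃ n : ℕ, A.valuation z * A.valuation x ^ n ≤ 1}
      zero_mem' := ⟨0, by simp⟩
      one_mem' := ⟨0, by simp⟩
      neg_mem' := fun {z} ⟨n, hn⟩ => ⟨n, by rwa [Valuation.map_neg]⟩
      mul_mem' := fun {a b} ⟨n, hn⟩ ⟨k, hk⟩ => ⟨n + k, by
        rw [map_mul, pow_add, mul_mul_mul_comm]
        exact mul_le_one' hn hk⟩
      add_mem' := fun {a b} ⟨n, hn⟩ ⟨k, hk⟩ => ⟨n + k, by
        refine (mul_le_mul_left (A.valuation.map_add a b) _).trans ?_
        rw [max_mul, max_le_iff, pow_add]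
        constructor
        · rw [← mul_assoc]
          exact mul_le_one' hn (pow_le_one₀ zero_le hxlt.le)
        · rw [mul_comm (_ ^ n), ← mul_assoc]
          exact mul_le_one' hk (pow_le_one₀ zero_le hxlt.le)⟩ }
  let B : ValuationSubring L := ValuationSubring.ofSubring S fun z => by
    rcases A.mem_or_inv_mem z with h | h
    · exact Or.inl ⟨0, by simpa using (A.valuation_le_one_iff z).2 h⟩
    · exact Or.inr ⟨0, by simpa using (A.valuation_le_one_iff _).2 h⟩
  have hAB : A ≤ B := fun z hz => ⟨0, by simpa using (A.valuation_le_one_iff z).2 hz⟩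
  have hxB : x⁻¹ ∈ B := ⟨1, by rw [pow_one, map_inv₀, inv_mul_cancel₀ hvx.ne']⟩
  rcases eq_or_eq_top_of_le hq hA hAB with h | h
  · rw [h, ← A.valuation_le_one_iff, map_inv₀] at hxB
    exact ((one_lt_inv₀ hvx).2 hxlt).not_ge hxB
  · obtain ⟨n, hn⟩ : (y * x)⁻¹ ∈ B := h ▸ ValuationSubring.mem_top _
    have h1 : A.valuation y * A.valuation x < A.valuation x ^ n := by
      calc A.valuation y * A.valuation x < A.valuation y * 1 := by
            exact mul_lt_mul_of_pos_left hxlt hvy
        _ = A.valuation y := mul_one _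
        _ ≤ _ := hyle n
    rw [map_inv₀, map_mul, inv_mul_le_one₀ (mul_pos hvy hvx)] at hn
    exact hn.not_gt h1

end Algebraic

end Fermat.Agent.Gal
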