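import Fermat.Agent.Gal.Unramified

/-!
# Decomposition groups

On every finite level the decomposition group at a place of `ℚ̄` is generated by inertia and one
Frobenius element (`exists_pow_mul_inertia_eqOn`).
-/

set_option autoImplicit false

namespace Fermat.Agent.Gal

open IntermediateField
open scoped Pointwise

local notation "Qbar" => AlgebraicClosure ℚ
local notation "AbsGal" => AlgebraicClosure ℚ ≃ₐ[ℚ] AlgebraicClosure ℚ

/-- An element of the decomposition group acts on the residues of the integers of a finite normal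
field as a power of the `q`-th power map. -/
theorem exists_pow_residue_eq {q : ℕ} (hq : q.Prime) (N : IntermediateField ℚ Qbar)
    [FiniteDimensional ℚ N] [Normal ℚ N] {A : ValuationSubring Qbar} (hA : A.LiesOverPrime q)
    {d : AbsGal} (hd : d • A = A) :
    ∃ j : ℕ, ∀ x ∈ N, IsIntegral ℤ x → d x - x ^ q ^ j ∈ A.nonunits := by
  have : Fact q.Prime := ⟨hq⟩
  have : NumberField N := ⟨⟩
  set P := primeBelow N A
  have hP0 : P ≠ ⊥ := by
    intro h0
    have h1 := natCast_mem_primeBelow N hA
    rw [show primeBelow N A = P from rfl, h0, Ideal.mem_bot, Nat.cast_eq_zero] at h1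
    exact hq.ne_zero h1
  have : P.IsMaximal := (primeBelow_isPrime N A).isMaximal hP0
  let : Field (NumberField.RingOfIntegers N ⧸ P) := Ideal.Quotient.field P
  have : CharP (NumberField.RingOfIntegers N ⧸ P) q := (CharP.charP_iff_prime_eq_zero hq).2 (by
    rw [← map_natCast (Ideal.Quotient.mk P), Ideal.Quotient.eq_zero_iff_mem]
    exact natCast_mem_primeBelow N hA)
  let : Algebra (ZMod q) (NumberField.RingOfIntegers N ⧸ P) := ZMod.algebra _ q
  have hstab : ∀ a : NumberField.RingOfIntegers N,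
      AlgEquiv.restrictNormalHom N d • a ∈ P ↔ a ∈ P := by
    intro a
    rw [mem_primeBelow, mem_primeBelow]
    show (((AlgEquiv.restrictNormalHom N d • a : NumberField.RingOfIntegers N) : N) : Qbar)
      ∈ A.nonunits ↔ _
    rw [show (((AlgEquiv.restrictNormalHom N d • a : NumberField.RingOfIntegers N) : N) : Qbar)
      = d ((a : N) : Qbar) from AlgEquiv.restrictNormal_commutes d N (a : N)]
    exact apply_mem_nonunits_iff hd _
  let e : (NumberField.RingOfIntegers N ⧸ P) ≃+* (NumberField.RingOfIntegers N ⧸ P) :=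
    Ideal.quotientEquiv P P
      (MulSemiringAction.toRingEquiv (N ≃ₐ[ℚ] N) _ (AlgEquiv.restrictNormalHom N d)) (by
        refine le_antisymm (fun a ha => ?_) ?_
        · obtain ⟨b, rfl⟩ := (MulSemiringAction.toRingEquiv (N ≃ₐ[ℚ] N)
            (NumberField.RingOfIntegers N) (AlgEquiv.restrictNormalHom N d)).surjective a
          exact Ideal.mem_map_of_mem _ ((hstab b).1 ha)
        · rw [Ideal.map_le_iff_le_comap]
          exact fun b hb => (hstab b).2 hb)
  let e' : (NumberField.RingOfIntegers N ⧸ P) ≃ₐ[ZMod q] (NumberField.RingOfIntegers N ⧸ P) :=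
    AlgEquiv.ofRingEquiv (f := e) fun z =>
      RingHom.congr_fun (Subsingleton.elim
        (e.toRingHom.comp (algebraMap (ZMod q) (NumberField.RingOfIntegers N ⧸ P)))
        (algebraMap (ZMod q) (NumberField.RingOfIntegers N ⧸ P))) z
  obtain ⟨⟨j, hj'⟩, hj⟩ := (FiniteField.bijective_frobeniusAlgEquivOfAlgebraic_pow
    (ZMod q) (NumberField.RingOfIntegers N ⧸ P)).2 e'
  refine ⟨j, fun x hx hxi => ?_⟩
  have hint : IsIntegral ℤ (⟨x, hx⟩ : N) :=
    (isIntegral_algebraMap_iff (A := N) (B := Qbar) (algebraMap N Qbar).injective).1 hxi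
  set a : NumberField.RingOfIntegers N := ⟨⟨x, hx⟩, hint⟩
  have h1 := AlgEquiv.congr_fun hj (Ideal.Quotient.mk P a)
  simp only [AlgEquiv.coe_pow, FiniteField.coe_frobeniusAlgEquivOfAlgebraic, ZMod.card,
    pow_iterate] at h1
  change (Ideal.Quotient.mk P a) ^ q ^ j
    = Ideal.Quotient.mk P (AlgEquiv.restrictNormalHom N d • a) at h1
  rw [← map_pow, eq_comm, Ideal.Quotient.eq, mem_primeBelow] at h1
  have he : (((AlgEquiv.restrictNormalHom N d • a - a ^ q ^ j : NumberField.RingOfIntegers N) : N)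
      : Qbar) = d x - x ^ q ^ j := by
    simp only [map_sub, map_pow, AddSubgroupClass.coe_sub, SubmonoidClass.coe_pow]
    congr 1
    exact AlgEquiv.restrictNormal_commutes d N (a : N)
  rwa [he] at h1

/-- **Decomposition group = inertia and powers of Frobenius**, on any finite level. -/
theorem exists_pow_mul_inertia_eqOn {q : ℕ} (hq : q.Prime) (L : IntermediateField ℚ Qbar)
    [FiniteDimensional ℚ L] {A : ValuationSubring Qbar} (hA : A.LiesOverPrime q) {φ : AbsGal}
    (hφ : A.IsFrobeniusAt φ q) {d : AbsGal} (hd : d ∈ A.decompositionSubgroup ℚ) :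
    ∃ (j : ℕ) (σ : AbsGal), σ ∈ A.inertiaSubgroupIn ℚ ∧ ∀ x ∈ L, d x = (φ ^ j * σ) x := by
  let N : IntermediateField ℚ Qbar := IntermediateField.normalClosure ℚ L Qbar
  have : Normal ℚ N := normalClosure.normal ℚ _ _
  obtain ⟨j, hj⟩ := exists_pow_residue_eq hq N hA (d := d) hd
  have hF := (isFrobeniusAt_iff A φ q).1 hφ
  have hFj : ∀ (j : ℕ) (x : Qbar), x ∈ A → (φ ^ j) x - x ^ q ^ j ∈ A.nonunits := by
    intro j
    induction j with
    | zero => intro x _; simp [zero_mem]
    | succ j ih =>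
      intro x hx
      have h1 : φ ((φ ^ j) x - x ^ q ^ j) ∈ A.nonunits :=
        (apply_mem_nonunits_iff hF.1 _).2 (ih x hx)
      have h2 := add_mem h1 (hF.2 (x ^ q ^ j) (pow_mem hx _))
      rw [map_sub, sub_add_sub_cancel, ← pow_mul, ← pow_succ, ← AlgEquiv.mul_apply,
        ← pow_succ'] at h2
      exact h2
  have hFA : (φ ^ j) • A = A :=
    pow_mem (show φ ∈ MulAction.stabilizer AbsGal A from hF.1) j
  obtain ⟨σ, hσ, hσe⟩ := exists_inertia_eqOn N A ((φ ^ j)⁻¹ * d) fun y hy hyi => by
    rw [← apply_mem_nonunits_iff hFA, map_sub, AlgEquiv.mul_apply, AlgEquiv.aut_inv,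
      AlgEquiv.apply_symm_apply]
    have := sub_mem (hj y hy hyi) (hFj j y (mem_of_isIntegral A hyi))
    rwa [sub_sub_sub_cancel_right] at this
  refine ⟨j, σ, hσ, fun x hx => ?_⟩
  rw [AlgEquiv.mul_apply, hσe x (L.le_normalClosure hx), AlgEquiv.mul_apply, AlgEquiv.aut_inv,
    AlgEquiv.apply_symm_apply]

end Fermat.Agent.Gal
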