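import Fermat.Agent.Gal.Frobenius

/-!
# Ramification in finite layers and absolute inertia

Ramification in finite Galois extensions inside `ℚ̄` versus inertia in the absolute Galois
group, and Minkowski's theorem: an algebraic number fixed by all inertia groups is rational
(`mem_range_of_inertia_fixed`).
-/

set_option autoImplicit false

noncomputable section

open scoped Pointwise
open NumberField

namespace Fermat.Agent.Gal

local notation "Qbar" => AlgebraicClosure ℚ
local notation "AbsGal" => AlgebraicClosure ℚ ≃ₐ[ℚ] AlgebraicClosure ℚ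
local notation "Zbar" => integralClosure ℤ (AlgebraicClosure ℚ)

variable (L : IntermediateField ℚ Qbar)

/-- The ring of integers of a subfield of `ℚ̄`, inside all algebraic integers. -/
def ringOfIntegersToZbar : 𝓞 L →+* Zbar :=
  ((algebraMap L Qbar).comp (algebraMap (𝓞 L) L)).codRestrict
    (Zbar : Subalgebra ℤ Qbar).toSubring fun a =>
    map_isIntegral_int (algebraMap L Qbar) a.2

@[simp]
theorem coe_ringOfIntegersToZbar (a : 𝓞 L) :
    ((ringOfIntegersToZbar L a : Zbar) : Qbar) = ((a : L) : Qbar) := rfl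

/-- The prime of a subfield below a place of `ℚ̄`. -/
def primeBelow (A : ValuationSubring Qbar) : Ideal (𝓞 L) :=
  (centre A).comap (ringOfIntegersToZbar L)

theorem mem_primeBelow {A : ValuationSubring Qbar} {a : 𝓞 L} :
    a ∈ primeBelow L A ↔ ((a : L) : Qbar) ∈ A.nonunits := mem_centre A _

instance primeBelow_isPrime (A : ValuationSubring Qbar) : (primeBelow L A).IsPrime :=
  Ideal.IsPrime.comap _

theorem natCast_mem_primeBelow {A : ValuationSubring Qbar} {q : ℕ} (hA : A.LiesOverPrime q) :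
    (q : 𝓞 L) ∈ primeBelow L A := by
  rw [mem_primeBelow]
  simp only [map_natCast]
  exact hA

theorem ringOfIntegersToZbar_restrictNormal [Normal ℚ L] (σ : AbsGal) (a : 𝓞 L) :
    ringOfIntegersToZbar L (AlgEquiv.restrictNormalHom L σ • a) =
      σ • ringOfIntegersToZbar L a :=
  Subtype.ext (AlgEquiv.restrictNormal_commutes σ L (a : L))

/-- Ideal inertia of a finite Galois layer lifts to the absolute inertia group. -/
theorem exists_inertia_restrictNormal_eq [NumberField L] [IsGalois ℚ L]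
    (A : ValuationSubring Qbar) (τ : L ≃ₐ[ℚ] L)
    (hτ : τ ∈ (primeBelow L A).inertia (L ≃ₐ[ℚ] L)) :
    ∃ σ ∈ A.inertiaSubgroupIn ℚ, AlgEquiv.restrictNormalHom L σ = τ := by
  obtain ⟨ρ, rfl⟩ := (AlgEquiv.restrictNormalHom_surjective Qbar :
    Function.Surjective (AlgEquiv.restrictNormalHom L : AbsGal →* (L ≃ₐ[ℚ] L))) τ
  obtain ⟨σ, hσ, h⟩ := exists_inertia_eqOn L A ρ
    fun a ha hai => by
      have hint : IsIntegral ℤ (⟨a, ha⟩ : L) :=
        (isIntegral_algebraMap_iff (A := L) (B := Qbar)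
          (algebraMap L Qbar).injective).1 hai
      have := hτ (⟨⟨a, ha⟩, hint⟩ : 𝓞 L)
      rw [Submodule.mem_toAddSubgroup, primeBelow, Ideal.mem_comap, map_sub,
        ringOfIntegersToZbar_restrictNormal] at this
      exact (mem_centre A _).1 this
  refine ⟨σ, hσ, AlgEquiv.ext fun x => Subtype.ext ?_⟩
  exact (AlgEquiv.restrictNormal_commutes σ L x).trans
    ((h x x.2).trans (AlgEquiv.restrictNormal_commutes ρ L x).symm)

/-- Restriction of an inertia element lies in ideal inertia. -/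
theorem restrictNormalHom_mem_inertia [NumberField L] [IsGalois ℚ L]
    {A : ValuationSubring Qbar} {σ : AbsGal} (hσ : σ ∈ A.inertiaSubgroupIn ℚ) :
    AlgEquiv.restrictNormalHom L σ ∈ (primeBelow L A).inertia (L ≃ₐ[ℚ] L) := by
  intro a
  rw [Submodule.mem_toAddSubgroup, primeBelow, Ideal.mem_comap, map_sub,
    ringOfIntegersToZbar_restrictNormal]
  exact (mem_inertia_iff_isIntegral A σ).1 hσ _ (ringOfIntegersToZbar L a).2

/-- Every maximal ideal of a Galois number field inside `ℚ̄` lies below a place. -/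
theorem exists_primeBelow_eq [NumberField L] [IsGalois ℚ L] (P : Ideal (𝓞 L)) [P.IsMaximal] :
    ∃ (q : ℕ) (A : ValuationSubring Qbar), q.Prime ∧ A.LiesOverPrime q ∧ primeBelow L A = P := by
  let q := Ideal.absNorm (P.under ℤ)
  have hPq : (P.under ℤ) = Ideal.span {(q : ℤ)} := (Int.ideal_span_absNorm_eq_self _).symm
  have hq0 : q ≠ 0 := by
    intro h
    rw [h, Nat.cast_zero, Ideal.span_singleton_eq_bot.2 rfl] at hPq
    exact Ideal.IsMaximal.ne_bot_of_isIntegral_int P (Ideal.eq_bot_of_comap_eq_bot hPq)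
  have hq : q.Prime := by
    rw [Nat.prime_iff_prime_int, ← Ideal.span_singleton_prime (by exact_mod_cast hq0), ← hPq]
    exact Ideal.IsPrime.under ℤ P
  obtain ⟨A, hA⟩ := exists_liesOverPrime (L := Qbar) hq
  have hu : (primeBelow L A).under ℤ = P.under ℤ := by
    rw [hPq]
    refine ((PrincipalIdealRing.isMaximal_of_irreducible
      (Nat.prime_iff_prime_int.1 hq).irreducible).eq_of_le
        (Ideal.IsPrime.under ℤ (primeBelow L A)).ne_top ?_).symm
    rw [Ideal.span_le, Set.singleton_subset_iff]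
    show algebraMap ℤ (𝓞 L) (q : ℤ) ∈ primeBelow L A
    simpa using natCast_mem_primeBelow L hA
  obtain ⟨τ, hτ⟩ := Algebra.IsInvariant.exists_smul_of_under_eq ℤ (𝓞 L) (L ≃ₐ[ℚ] L)
    (primeBelow L A) P hu
  obtain ⟨ρ, rfl⟩ := (AlgEquiv.restrictNormalHom_surjective Qbar :
    Function.Surjective (AlgEquiv.restrictNormalHom L : AbsGal →* (L ≃ₐ[ℚ] L))) τ
  refine ⟨q, ρ • A, hq, ?_, ?_⟩
  · exact liesOverPrime_smul ρ hA
  · rw [hτ]
    ext a
    rw [Ideal.mem_pointwise_smul_iff_inv_smul_mem, ← map_inv, primeBelow, primeBelow,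
      Ideal.mem_comap, Ideal.mem_comap, ringOfIntegersToZbar_restrictNormal, ← centre_smul,
      Ideal.mem_pointwise_smul_iff_inv_smul_mem]

/-- If inertia at `A` fixes `L` pointwise then `L` is unramified at the prime below `A`. -/
theorem isUnramifiedAt_primeBelow_of_fixed [NumberField L] [IsGalois ℚ L] {q : ℕ} (hq : q.Prime)
    {A : ValuationSubring Qbar} (hA : A.LiesOverPrime q)
    (h : ∀ σ ∈ A.inertiaSubgroupIn ℚ, ∀ x ∈ L, σ x = x) :
    Algebra.IsUnramifiedAt ℤ (primeBelow L A) := by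
  let P := primeBelow L A
  have hP : ↑q ∈ P := natCast_mem_primeBelow L hA
  have hP0 : P ≠ ⊥ := by
    intro h0
    rw [h0, Ideal.mem_bot] at hP
    exact hq.ne_zero (by exact_mod_cast hP)
  have htriv : P.inertia (L ≃ₐ[ℚ] L) = ⊥ := by
    rw [Subgroup.eq_bot_iff_forall]
    intro τ hτ
    obtain ⟨σ, hσ, rfl⟩ := exists_inertia_restrictNormal_eq L A τ hτ
    refine AlgEquiv.ext fun x => Subtype.ext ?_
    exact (AlgEquiv.restrictNormal_commutes σ L x).trans (h σ hσ x x.2)
  rw [← Ideal.ramificationIdx_eq_one_iff,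
    ← Ideal.ramificationIdxIn_eq_ramificationIdx (P.under ℤ) P (L ≃ₐ[ℚ] L),
    ← Ideal.card_inertia_eq_ramificationIdxIn (G := L ≃ₐ[ℚ] L) (P.under ℤ) P, htriv,
    Subgroup.card_bot]

/-- **Minkowski**, Galois layer: if every inertia group fixes `L` pointwise then `L = ℚ`. -/
theorem finrank_eq_one_of_inertia_trivial [NumberField L] [IsGalois ℚ L]
    (h : ∀ (q : ℕ), q.Prime → ∀ A : ValuationSubring Qbar, A.LiesOverPrime q →
      ∀ σ ∈ A.inertiaSubgroupIn ℚ, ∀ x ∈ L, σ x = x) :
    Module.finrank ℚ L = 1 := by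
  by_contra hne
  have hlt : 1 < Module.finrank ℚ L := by
    have : 0 < Module.finrank ℚ L := Module.finrank_pos
    omega
  obtain ⟨p, hp, hram⟩ := NumberField.exists_not_isUnramifiedAt_int_of_isGalois
    (K := L) (𝒪 := 𝓞 L) hlt
  obtain ⟨A, hA⟩ := exists_liesOverPrime (L := Qbar) hp
  exact hram _ inferInstance (natCast_mem_primeBelow L hA)
    (isUnramifiedAt_primeBelow_of_fixed L hp hA (h p hp A hA))

theorem conj_mem_inertia {A : ValuationSubring Qbar} {σ : AbsGal}
    (hσ : σ ∈ A.inertiaSubgroupIn ℚ) (ρ : AbsGal) :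
    ρ * σ * ρ⁻¹ ∈ (ρ • A).inertiaSubgroupIn ℚ := by
  rw [mem_inertia_iff_isIntegral]
  intro x hx
  have h1 := (mem_inertia_iff_isIntegral A σ).1 hσ _ (isIntegral_apply ρ⁻¹ hx)
  rw [← apply_mem_nonunits_smul_iff ρ A] at h1
  simpa [AlgEquiv.mul_apply, AlgEquiv.aut_inv] using h1

/-- **Minkowski**: an algebraic number fixed by every inertia group is rational. -/
theorem mem_range_of_inertia_fixed {x : Qbar}
    (h : ∀ (q : ℕ), q.Prime → ∀ A : ValuationSubring Qbar, A.LiesOverPrime q →
      ∀ σ ∈ A.inertiaSubgroupIn ℚ, σ x = x) :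
    x ∈ Set.range (algebraMap ℚ Qbar) := by
  let E : IntermediateField ℚ Qbar :=
    IntermediateField.adjoin ℚ ((minpoly ℚ x).rootSet Qbar)
  have hsf : (minpoly ℚ x).IsSplittingField ℚ E :=
    IntermediateField.adjoin_rootSet_isSplittingField (IsAlgClosed.splits _)
  have hfin : FiniteDimensional ℚ E := Polynomial.IsSplittingField.finiteDimensional E (minpoly ℚ x)
  have hnor : Normal ℚ E := Normal.of_isSplittingField (minpoly ℚ x)
  have : NumberField E := @NumberField.mk _ _ _ (by convert hfin)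
  have : IsGalois ℚ E := ⟨⟩
  have hfix : ∀ (q : ℕ), q.Prime → ∀ A : ValuationSubring Qbar, A.LiesOverPrime q →
      ∀ σ ∈ A.inertiaSubgroupIn ℚ, ∀ y ∈ E, σ y = y := by
    intro q hq A hA σ hσ y hy
    induction hy using IntermediateField.adjoin_induction with
    | mem y hy =>
      obtain ⟨ρ, rfl⟩ := minpoly.exists_algEquiv_of_root'
        (Algebra.IsAlgebraic.isAlgebraic (R := ℚ) x)
        (Polynomial.mem_rootSet.1 hy).2
      have := h q hq _ (liesOverPrime_smul ρ⁻¹ hA) _ (conj_mem_inertia hσ ρ⁻¹)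
      rw [inv_inv, AlgEquiv.mul_apply, AlgEquiv.mul_apply] at this
      exact ρ.symm.injective (this.trans (ρ.symm_apply_apply x).symm)
    | algebraMap r => exact σ.commutes r
    | add a b _ _ ha hb => rw [map_add, ha, hb]
    | inv a _ ha => rw [map_inv₀, ha]
    | mul a b _ _ ha hb => rw [map_mul, ha, hb]
  have h1 := finrank_eq_one_of_inertia_trivial E hfix
  have hbot : E = ⊥ := IntermediateField.finrank_eq_one_iff.1 (by convert h1)
  have hx : x ∈ E := IntermediateField.subset_adjoin ℚ _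
    (Polynomial.mem_rootSet.2
      ⟨minpoly.ne_zero (Algebra.IsAlgebraic.isAlgebraic (R := ℚ) x).isIntegral,
      minpoly.aeval ℚ x⟩)
  rw [hbot] at hx
  exact IntermediateField.mem_bot.1 hx

/-- A closed subgroup containing every inertia group is the whole Galois group. -/
theorem eq_top_of_inertia_le (H : Subgroup AbsGal) (hH : IsClosed (H : Set AbsGal))
    (h : ∀ (q : ℕ), q.Prime → ∀ A : ValuationSubring Qbar, A.LiesOverPrime q →
      A.inertiaSubgroupIn ℚ ≤ H) : H = ⊤ := by
  have hF : IntermediateField.fixedField H = ⊥ := by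
    rw [eq_bot_iff]
    intro x hx
    exact IntermediateField.mem_bot.2
      (mem_range_of_inertia_fixed fun q hq A hA σ hσ => hx ⟨σ, h q hq A hA hσ⟩)
  have h2 := InfiniteGalois.fixingSubgroup_fixedField (⟨H, hH⟩ : ClosedSubgroup AbsGal)
  simp only at h2
  rw [← h2, hF, IntermediateField.fixingSubgroup_bot]

/-- A homomorphism of finite level which is trivial on every inertia group is trivial. -/
theorem eq_one_of_inertia_trivial {M : Type*} [MulOneClass M] (ρ : AbsGal →* M)
    (hlevel : ∃ F : IntermediateField ℚ Qbar, FiniteDimensional ℚ F ∧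
      ∀ σ : AbsGal, (∀ x ∈ F, σ x = x) → ρ σ = 1)
    (h : ∀ (q : ℕ), q.Prime → ∀ A : ValuationSubring Qbar, A.LiesOverPrime q →
      ∀ σ ∈ A.inertiaSubgroupIn ℚ, ρ σ = 1) : ρ = 1 := by
  obtain ⟨F, hF, hρ⟩ := hlevel
  have hle : F.fixingSubgroup ≤ ρ.ker := fun σ hσ =>
    MonoidHom.mem_ker.2 (hρ σ fun x hx => (IntermediateField.mem_fixingSubgroup_iff _ _).1 hσ x hx)
  have hopen : IsOpen (ρ.ker : Set AbsGal) :=
    Subgroup.isOpen_mono hle F.fixingSubgroup_isOpen
  have htop := eq_top_of_inertia_le ρ.ker (Subgroup.isClosed_of_isOpen _ hopen)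
    fun q hq A hA σ hσ => MonoidHom.mem_ker.2 (h q hq A hA σ hσ)
  ext σ
  exact MonoidHom.mem_ker.1 (htop ▸ Subgroup.mem_top σ)

end Fermat.Agent.Gal
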