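import Fermat.Agent.Gal.Unramified
import Fermat.Prelude.Def_GroupCohomology_ContinuousUnramified

/-!
# Hermite's finiteness theorem

Up to a given degree there is a largest number field inside `ℚ̄` unramified outside a finite set
of primes (`exists_isUnramifiedOutside_forall_le`), by an elementary discriminant bound.
-/

set_option autoImplicit false

noncomputable section

open scoped Pointwise nonZeroDivisors
open NumberField

namespace Fermat.Agent.Gal

local notation "Qbar" => AlgebraicClosure ℚ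
local notation "AbsGal" => AlgebraicClosure ℚ ≃ₐ[ℚ] AlgebraicClosure ℚ

section Different

variable (K : Type*) [Field K] [NumberField K] [IsGalois ℚ K]

/-- Elementary bound on the different: if `(p ^ m) = P ^ k * J` with `J` prime to `P` and
`p ^ m` does not divide the order of any subgroup of the Galois group, then `P ^ k` does not
divide the different. -/
theorem not_pow_dvd_differentIdeal {p : ℕ} (hp : p.Prime) {m k : ℕ}
    (hm : Module.finrank ℚ K < p ^ m) (P : Ideal (𝓞 K)) [P.IsMaximal] (hpP : (p : 𝓞 K) ∈ P)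
    {J : Ideal (𝓞 K)}
    (hJ : Ideal.span {((p ^ m : ℕ) : 𝓞 K)} = P ^ k * J) (hPJ : ¬ P ∣ J) :
    ¬ P ^ k ∣ differentIdeal ℤ (𝓞 K) := by
  intro hdvd
  have hpm0 : ((p ^ m : ℕ) : 𝓞 K) ≠ 0 := by exact_mod_cast (pow_pos hp.pos m).ne'
  have hspan0 : Ideal.span {((p ^ m : ℕ) : 𝓞 K)} ≠ ⊥ := by simpa using hpm0
  have hPk0 : P ^ k ≠ ⊥ := fun h => hspan0 (by rw [hJ, h, Ideal.bot_mul])
  have hcop : P ^ k ⊔ J = ⊤ :=
    Ideal.isCoprime_iff_sup_eq.1 ((Ideal.isCoprime_iff_sup_eq.2
      (by
        by_contra hne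
        obtain ⟨M, hM, hle⟩ := Ideal.exists_le_maximal _ hne
        have hPM : P = M := (inferInstance : P.IsMaximal).eq_of_le hM.ne_top
          (le_sup_left.trans hle)
        exact hPJ (Ideal.dvd_iff_le.2 (hPM ▸ le_sup_right.trans hle)))).pow_left (m := k))
  obtain ⟨u, hu, y, hy, huy⟩ := Submodule.mem_sup.1 ((Ideal.eq_top_iff_one _).1 hcop)
  -- the trace of `y` is divisible by `p ^ m`
  set x : K := (y : K) / ((p ^ m : ℕ) : K) with hx
  have hpmK : ((p ^ m : ℕ) : K) ≠ 0 := by exact_mod_cast (pow_pos hp.pos m).ne'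
  have hxmem : x ∈ ((P ^ k : Ideal (𝓞 K)) : FractionalIdeal (𝓞 K)⁰ K)⁻¹ := by
    rw [FractionalIdeal.mem_inv_iff (by simpa using hPk0)]
    intro z hz
    rw [FractionalIdeal.mem_coeIdeal] at hz
    obtain ⟨z, hz, rfl⟩ := hz
    have : z * y ∈ Ideal.span {((p ^ m : ℕ) : 𝓞 K)} := hJ ▸ Ideal.mul_mem_mul hz hy
    obtain ⟨w, hw⟩ := Ideal.mem_span_singleton'.1 this
    refine (FractionalIdeal.mem_one_iff _).2 ⟨w, ?_⟩
    rw [hx, eq_comm, div_mul_eq_mul_div, div_eq_iff hpmK, mul_comm]
    have := congrArg (algebraMap (𝓞 K) K) hw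
    rw [map_mul, map_mul, map_natCast] at this
    exact this.symm
  have htr := (differentialIdeal_le_iff (A := ℤ) (K := ℚ) (L := K) hPk0).1
    (Ideal.le_of_dvd hdvd)
  obtain ⟨n, hn⟩ := Submodule.mem_one.1 (htr ⟨x, hxmem, rfl⟩)
  -- hence `p ^ m` divides the order of the stabiliser of `P`
  classical
  have hsum : (∑ σ : K ≃ₐ[ℚ] K, σ • y) = (n : 𝓞 K) * ((p ^ m : ℕ) : 𝓞 K) := by
    apply IsFractionRing.injective (𝓞 K) K
    rw [map_sum, map_mul, map_intCast, map_natCast]
    have h1 : (n : K) = algebraMap ℚ K (Algebra.trace ℚ K x) := by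
      have := congrArg (algebraMap ℚ K) hn
      simpa using this
    rw [h1, trace_eq_sum_automorphisms, Finset.sum_mul]
    refine Finset.sum_congr rfl fun σ _ => ?_
    show σ (y : K) = σ x * ((p ^ m : ℕ) : K)
    rw [hx, map_div₀, map_natCast, div_mul_cancel₀ _ hpmK]
  let d := (Finset.univ.filter fun σ : K ≃ₐ[ℚ] K => σ • P = P).card
  have hterm : ∀ σ : K ≃ₐ[ℚ] K, σ • y - (if σ • P = P then 1 else 0) ∈ P ^ k := by
    intro σ
    split_ifs with hσ
    · have h1 : y - 1 = -u := by rw [← huy]; ring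
      have : σ • (y - 1) ∈ σ • (P ^ k) :=
        Ideal.smul_mem_pointwise_smul σ _ _ (h1 ▸ neg_mem hu)
      rwa [smul_sub, smul_one, smul_pow', hσ] at this
    · rw [sub_zero]
      have h1 : σ • y ∈ σ • J := Ideal.smul_mem_pointwise_smul σ _ _ hy
      have hfix : σ • Ideal.span {((p ^ m : ℕ) : 𝓞 K)} = Ideal.span {((p ^ m : ℕ) : 𝓞 K)} := by
        rw [Ideal.pointwise_smul_def, Ideal.map_span, Set.image_singleton, map_natCast]
      have h2 : σ • J * (σ • P) ^ k ≤ P ^ k := by
        rw [← smul_pow', ← smul_mul', mul_comm, ← hJ, hfix, hJ]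
        exact Ideal.mul_le_left
      have : (σ • P).IsMaximal := by
        rw [Ideal.pointwise_smul_def]
        exact Ideal.map_isMaximal_of_equiv (MulSemiringAction.toRingEquiv _ (𝓞 K) σ)
      have h3 : IsCoprime ((σ • P) ^ k) (P ^ k) :=
        (Ideal.isCoprime_of_isMaximal hσ).pow
      rw [Ideal.isCoprime_iff_sup_eq] at h3
      obtain ⟨a, ha, b, hb, hab⟩ := Submodule.mem_sup.1 ((Ideal.eq_top_iff_one _).1 h3)
      rw [← mul_one (σ • y), ← hab, mul_add]
      exact add_mem (h2 (Ideal.mul_mem_mul h1 ha)) (Ideal.mul_mem_left _ _ hb)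
  have hd : (d : 𝓞 K) ∈ P ^ k := by
    have h1 := sum_mem (t := Finset.univ) fun σ (_ : σ ∈ Finset.univ) => hterm σ
    rw [Finset.sum_sub_distrib, hsum, Finset.sum_boole] at h1
    have h2 : (n : 𝓞 K) * ((p ^ m : ℕ) : 𝓞 K) ∈ P ^ k :=
      Ideal.mul_mem_left _ _ (Ideal.mul_le_left (hJ ▸ Ideal.mem_span_singleton_self _))
    have h3 := sub_mem h2 h1
    rw [sub_sub_cancel] at h3
    exact h3
  have hd0 : 0 < d := Finset.card_pos.2
    ⟨1, Finset.mem_filter.2 ⟨Finset.mem_univ _, one_smul _ _⟩⟩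
  have hdn : d < p ^ m := by
    refine lt_of_le_of_lt ?_ hm
    rw [← IsGalois.card_aut_eq_finrank ℚ K, Nat.card_eq_fintype_card]
    exact Finset.card_le_univ _
  obtain ⟨a, v, hv, hdv⟩ := Nat.exists_eq_pow_mul_and_not_dvd hd0.ne' p hp.ne_one
  have ham : a < m := by
    by_contra hle
    have : p ^ m ∣ d := hdv ▸ dvd_mul_of_dvd_left (pow_dvd_pow p (Nat.le_of_not_lt hle)) v
    exact absurd (Nat.le_of_dvd hd0 this) (Nat.not_le.2 hdn)
  obtain ⟨r, s, hrs⟩ := ((hp.coprime_iff_not_dvd.2 hv).pow_left m).isCoprime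
  -- `p ^ a ∈ P ^ k`
  have hpa : ((p : 𝓞 K)) ^ a ∈ P ^ k := by
    have h1 : (1 : 𝓞 K) = (r : 𝓞 K) * ((p ^ m : ℕ) : 𝓞 K) + (s : 𝓞 K) * (v : 𝓞 K) := by
      exact_mod_cast (congrArg (Int.cast : ℤ → 𝓞 K) hrs).symm
    rw [← mul_one ((p : 𝓞 K) ^ a), h1, mul_add]
    refine add_mem (Ideal.mul_mem_left _ _ (Ideal.mul_mem_left _ _
      (Ideal.mul_le_left (hJ ▸ Ideal.mem_span_singleton_self _)))) ?_
    rw [mul_left_comm]
    refine Ideal.mul_mem_left _ _ ?_
    rw [← Nat.cast_pow, ← Nat.cast_mul, ← hdv]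
    exact hd
  -- so `(p ^ m) ≤ P ^ (k + 1)`
  have hle : P ^ k * J ≤ P ^ (k + 1) := by
    rw [← hJ, Ideal.span_singleton_le_iff_mem, pow_succ, Nat.cast_pow,
      show m = a + (m - a - 1 + 1) by omega, pow_add, pow_succ]
    exact Ideal.mul_mem_mul hpa (Ideal.mul_mem_left _ _ hpP)
  rw [← Ideal.dvd_iff_le, pow_succ] at hle
  exact hPJ ((mul_dvd_mul_iff_left hPk0).1 hle)

end Different

section Finite

/-- A discriminant bound for Galois fields unramified outside `S`. -/
theorem natAbs_discr_le (L : IntermediateField ℚ Qbar) [NumberField L] [IsGalois ℚ L]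
    (S : Finset Nat.Primes) {d : ℕ} (hd : Module.finrank ℚ L ≤ d)
    (h : ∀ q : Nat.Primes, q ∉ S → ∀ A : ValuationSubring Qbar, A.LiesOverPrime (q : ℕ) →
      A.inertiaSubgroupIn ℚ ≤ L.fixingSubgroup) :
    (discr L).natAbs ≤ (∏ q ∈ S, (q : ℕ) ^ d) ^ d := by
  classical
  set C : ℕ := ∏ q ∈ S, (q : ℕ) ^ d with hC
  have hCpos : 0 < C := Finset.prod_pos fun q _ => pow_pos q.2.pos d
  have hD0 : differentIdeal ℤ (𝓞 L) ≠ ⊥ := differentIdeal_ne_bot
  have hdvd : differentIdeal ℤ (𝓞 L) ∣ Ideal.span {(C : 𝓞 L)} := by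
    rw [UniqueFactorizationMonoid.dvd_iff_emultiplicity_le hD0]
    intro P hP
    by_cases hPD : P ∣ differentIdeal ℤ (𝓞 L)
    swap
    · rw [emultiplicity_eq_zero.2 hPD]
      exact zero_le
    have : P.IsPrime := Ideal.isPrime_of_prime hP
    have : P.IsMaximal := Ideal.IsPrime.isMaximal inferInstance hP.ne_zero
    obtain ⟨q, A, hq, hA, hAP⟩ := exists_primeBelow_eq L P
    have hqP : (q : 𝓞 L) ∈ P := hAP ▸ natCast_mem_primeBelow L hA
    have hqS : (⟨q, hq⟩ : Nat.Primes) ∈ S := by
      by_contra hqS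
      have : Algebra.IsUnramifiedAt ℤ P := by
        subst hAP
        exact isUnramifiedAt_primeBelow_of_fixed L hq hA fun σ hσ x hx =>
          (IntermediateField.mem_fixingSubgroup_iff _ _).1 (h _ hqS A hA hσ) x hx
      exact (not_dvd_differentIdeal_iff (A := ℤ) (P := P)).2 inferInstance hPD
    have hqd : q ^ d ∣ C := Finset.dvd_prod_of_mem (fun r : Nat.Primes => (r : ℕ) ^ d) hqS
    have hspan : Ideal.span {((q ^ d : ℕ) : 𝓞 L)} ≠ 0 := by
      simp [hq.ne_zero]
    obtain ⟨k, J, hPJ, hJ⟩ := WfDvdMonoid.max_power_factor' hspan hP.not_isUnit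
    have hnot := not_pow_dvd_differentIdeal L hq (m := d) (k := k)
      (lt_of_le_of_lt hd (Nat.lt_pow_self hq.one_lt)) P hqP hJ hPJ
    refine le_trans (le_of_lt (emultiplicity_lt_iff_not_dvd.2 hnot)) ?_
    refine le_emultiplicity_of_pow_dvd ((dvd_mul_right (P ^ k) J).trans ?_)
    rw [← hJ, Ideal.dvd_iff_le, Ideal.span_singleton_le_span_singleton]
    exact_mod_cast Nat.cast_dvd_cast hqd
  have h1 : (discr L).natAbs ∣ C ^ Module.finrank ℤ (𝓞 L) := by
    rw [← absNorm_differentIdeal L (𝓞 L), ← Ideal.absNorm_span_natCast]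
    exact Ideal.absNorm_dvd_absNorm_of_le (Ideal.le_of_dvd hdvd)
  rw [RingOfIntegers.rank] at h1
  exact (Nat.le_of_dvd (pow_pos hCpos _) h1).trans (Nat.pow_le_pow_right hCpos hd)

/-- The splitting field of the minimal polynomial of `α` inside `ℚ̄`. -/
def splittingFieldIn (α : Qbar) : IntermediateField ℚ Qbar :=
  IntermediateField.adjoin ℚ ((minpoly ℚ α).rootSet Qbar)

theorem mem_splittingFieldIn (α : Qbar) : α ∈ splittingFieldIn α :=
  IntermediateField.subset_adjoin ℚ _ (Polynomial.mem_rootSet.2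
    ⟨minpoly.ne_zero (Algebra.IsAlgebraic.isAlgebraic (R := ℚ) α).isIntegral, minpoly.aeval ℚ α⟩)

instance isSplittingField_splittingFieldIn (α : Qbar) :
    (minpoly ℚ α).IsSplittingField ℚ (splittingFieldIn α) :=
  IntermediateField.adjoin_rootSet_isSplittingField (IsAlgClosed.splits _)

instance finiteDimensional_splittingFieldIn (α : Qbar) :
    FiniteDimensional ℚ (splittingFieldIn α) :=
  Polynomial.IsSplittingField.finiteDimensional _ (minpoly ℚ α)

instance numberField_splittingFieldIn (α : Qbar) : NumberField (splittingFieldIn α) :=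
  @NumberField.mk _ _ _ (by convert finiteDimensional_splittingFieldIn α)

instance isGalois_splittingFieldIn (α : Qbar) : IsGalois ℚ (splittingFieldIn α) :=
  haveI : Normal ℚ (splittingFieldIn α) := Normal.of_isSplittingField (minpoly ℚ α)
  ⟨⟩

theorem finrank_splittingFieldIn_le (α : Qbar) :
    Module.finrank ℚ (splittingFieldIn α) ≤ (minpoly ℚ α).natDegree.factorial := by
  classical
  have hsep : (minpoly ℚ α).Separable :=
    (minpoly.irreducible (Algebra.IsAlgebraic.isAlgebraic (R := ℚ) α).isIntegral).separable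
  have : Fact (((minpoly ℚ α).map (algebraMap ℚ Qbar)).Splits) := ⟨IsAlgClosed.splits _⟩
  rw [(Polynomial.IsSplittingField.algEquiv (splittingFieldIn α)
      (minpoly ℚ α)).toLinearEquiv.finrank_eq,
    ← Polynomial.Gal.card_of_separable hsep]
  refine (Nat.card_le_card_of_injective _
    (Polynomial.Gal.galActionHom_injective (minpoly ℚ α) Qbar)).trans ?_
  rw [Nat.card_eq_fintype_card, Fintype.card_perm]
  exact Nat.factorial_le (le_of_eq_of_le (Polynomial.card_rootSet_eq_natDegree hsep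
    (IsAlgClosed.splits _)) le_rfl)

/-- The splitting field of an element of a field unramified outside `S` is unramified outside
`S`. -/
theorem isUnramifiedOutside_splittingFieldIn {S : Finset Nat.Primes}
    {F : IntermediateField ℚ Qbar} (hF : F.IsUnramifiedOutside S) {α : Qbar} (hα : α ∈ F) :
    (splittingFieldIn α).IsUnramifiedOutside S := by
  refine ⟨finiteDimensional_splittingFieldIn α, fun q hq A hA σ hσ => ?_⟩
  rw [IntermediateField.mem_fixingSubgroup_iff]
  intro y hy
  induction hy using IntermediateField.adjoin_induction with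
  | mem y hy =>
    obtain ⟨ρ, rfl⟩ := minpoly.exists_algEquiv_of_root'
      (Algebra.IsAlgebraic.isAlgebraic (R := ℚ) α) (Polynomial.mem_rootSet.1 hy).2
    have := (IntermediateField.mem_fixingSubgroup_iff _ _).1
      (hF.2 q hq _ (liesOverPrime_smul ρ⁻¹ hA) (conj_mem_inertia hσ ρ⁻¹)) α hα
    rw [inv_inv, AlgEquiv.mul_apply, AlgEquiv.mul_apply] at this
    exact ρ.symm.injective (this.trans (ρ.symm_apply_apply α).symm)
  | algebraMap r => exact σ.commutes r
  | add a b _ _ ha hb => rw [map_add, ha, hb]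
  | inv a _ ha => rw [map_inv₀, ha]
  | mul a b _ _ ha hb => rw [map_mul, ha, hb]

/-- **Hermite**: up to a given degree there is a largest field unramified outside `S`. -/
theorem exists_isUnramifiedOutside_forall_le (S : Finset Nat.Primes) (d : ℕ) :
    ∃ E : IntermediateField ℚ Qbar, E.IsUnramifiedOutside S ∧
      ∀ F : IntermediateField ℚ Qbar, F.IsUnramifiedOutside S → Module.finrank ℚ F ≤ d →
        F ≤ E := by
  classical
  set D := d.factorial with hD
  set B : ℕ := (∏ q ∈ S, (q : ℕ) ^ D) ^ D with hB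
  let T : Set (IntermediateField ℚ Qbar) :=
    {E | ∃ (_ : NumberField E) (_ : IsGalois ℚ E),
      E.IsUnramifiedOutside S ∧ Module.finrank ℚ E ≤ D}
  have hT : T.Finite := by
    refine Set.Finite.subset ((NumberField.finite_of_discr_bdd Qbar B).image Subtype.val) ?_
    rintro E ⟨hE₁, hE₂, hE, hdeg⟩
    refine ⟨⟨E, hE.1⟩, ?_, rfl⟩
    show |discr E| ≤ (B : ℤ)
    rw [Int.abs_eq_natAbs]
    exact_mod_cast natAbs_discr_le E S hdeg hE.2
  refine ⟨hT.toFinset.sup id, ?_, fun F hF hdeg => ?_⟩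
  · refine Finset.sup_induction (p := fun X => IntermediateField.IsUnramifiedOutside X S)
      (IntermediateField.isUnramifiedOutside_bot S)
      (fun E hE E' hE' => hE.sup hE') fun E hE => ?_
    obtain ⟨-, -, hE, -⟩ := hT.mem_toFinset.1 hE
    exact hE
  · have : FiniteDimensional ℚ F := hF.1
    obtain ⟨α, hα⟩ := Field.exists_primitive_element ℚ F
    have hmem : splittingFieldIn (α : Qbar) ∈ T := by
      refine ⟨inferInstance, inferInstance,
        isUnramifiedOutside_splittingFieldIn hF α.2, ?_⟩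
      refine (finrank_splittingFieldIn_le _).trans (Nat.factorial_le ?_)
      rw [show minpoly ℚ (α : Qbar) = minpoly ℚ α from
        minpoly.algebraMap_eq (algebraMap F Qbar).injective α]
      exact (minpoly.natDegree_le α).trans hdeg
    refine le_trans ?_ (Finset.le_sup (f := id) (hT.mem_toFinset.2 hmem))
    show F ≤ splittingFieldIn (α : Qbar)
    intro x hx
    have hx' : (⟨x, hx⟩ : F) ∈ IntermediateField.adjoin ℚ {α} := hα ▸ IntermediateField.mem_top
    suffices h : ∀ y : F, y ∈ IntermediateField.adjoin ℚ {α} →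
        (y : Qbar) ∈ splittingFieldIn (α : Qbar) from h _ hx'
    intro y hy
    induction hy using IntermediateField.adjoin_induction with
    | mem y hy =>
      obtain rfl : y = α := hy
      exact mem_splittingFieldIn _
    | algebraMap r => exact IntermediateField.algebraMap_mem _ r
    | add a b _ _ ha hb => exact add_mem ha hb
    | inv a _ ha => exact inv_mem ha
    | mul a b _ _ ha hb => exact mul_mem ha hb

end Finite

end Fermat.Agent.Gal
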