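import Fermat.Agent.Gal.Unramified
import Fermat.Agent.Gal.Residue
import Fermat.Agent.Carayol.Descent.InertiaField

/-!
# Tame inertia at a place of `ℚ̄` over `q`

For representations of finite level whose inertial image has `l`-power order (`l ≠ q`) one
inertia element generates every such image, and Frobenius acts on it by the `q`-th power
(`exists_tame_generator`).
-/

set_option autoImplicit false

noncomputable section

namespace Fermat.Agent.Gal.Tame

open NumberField IsDedekindDomain WithZero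
open scoped Pointwise

universe u

local notation "Qbar" => AlgebraicClosure ℚ
local notation "AbsGal" => AlgebraicClosure ℚ ≃ₐ[ℚ] AlgebraicClosure ℚ

/-- `x ↦ σ x / x` on nonzero algebraic numbers. -/
def twist (σ : AbsGal) : Qbarˣ →* Qbarˣ :=
  Units.map (σ : Qbar →* Qbar) / MonoidHom.id Qbarˣ

@[simp]
theorem coe_twist (σ : AbsGal) (x : Qbarˣ) : ((twist σ x : Qbarˣ) : Qbar) = σ x / x := by
  simp [twist, div_eq_mul_inv]

variable {A : ValuationSubring (AlgebraicClosure ℚ)} {q : ℕ}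

theorem mem_unitGroup_of {u : Qbarˣ} (h1 : (u : Qbar) ∈ A) (h2 : (u : Qbar)⁻¹ ∈ A) :
    u ∈ A.unitGroup := by
  rw [A.mem_unitGroup_iff]
  have a := (A.valuation_le_one_iff _).2 h1
  have b := (A.valuation_le_one_iff _).2 h2
  refine le_antisymm a ?_
  rw [map_inv₀] at b
  have hne : (0 : A.ValueGroup) < A.valuation (u : Qbar) :=
    zero_lt_iff.2 ((Valuation.ne_zero_iff _).2 u.ne_zero)
  exact (inv_le_one₀ hne).1 b

theorem val_mem {u : Qbarˣ} (h : u ∈ A.unitGroup) : (u : Qbar) ∈ A :=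
  (A.valuation_le_one_iff _).1 ((A.mem_unitGroup_iff u).1 h).le

theorem inv_val_mem {u : Qbarˣ} (h : u ∈ A.unitGroup) : (u : Qbar)⁻¹ ∈ A := by
  simpa using val_mem (inv_mem h)

theorem mem_principal_iff {u : Qbarˣ} :
    u ∈ A.principalUnitGroup ↔ (u : Qbar) - 1 ∈ A.nonunits := by
  rw [A.mem_principalUnitGroup_iff, A.mem_nonunits_iff]

theorem residue_eq_of_sub_mem {u w : A.unitGroup}
    (h : ((u : Qbarˣ) : Qbar) - ((w : Qbarˣ) : Qbar) ∈ A.nonunits) :
    A.unitGroupToResidueFieldUnits u = A.unitGroupToResidueFieldUnits w := by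
  apply Units.ext
  rw [A.coe_unitGroupToResidueFieldUnits_apply, A.coe_unitGroupToResidueFieldUnits_apply]
  exact (residue_eq_residue_iff A _ _).2 h

theorem smul_pow_eq {σ : AbsGal} (hσ : σ • A = A) (i : ℕ) : σ ^ i • A = A := by
  induction i with
  | zero => rw [pow_zero, one_smul]
  | succ i ih => rw [pow_succ, mul_smul, hσ, ih]

theorem apply_mem_field (L : IntermediateField ℚ Qbar) [Normal ℚ L] (σ : AbsGal) {x : Qbar}
    (hx : x ∈ L) : σ x ∈ L := by
  have h := AlgEquiv.restrictNormal_commutes σ L ⟨x, hx⟩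
  exact (show ((σ.restrictNormal L ⟨x, hx⟩ : L) : Qbar) = σ x from h) ▸ SetLike.coe_mem _

theorem pow_card_apply (L : IntermediateField ℚ Qbar) [FiniteDimensional ℚ L] [Normal ℚ L]
    (σ : AbsGal) {x : Qbar} (hx : x ∈ L) : (σ ^ Nat.card (L ≃ₐ[ℚ] L)) x = x := by
  have h := AlgEquiv.restrictNormal_commutes (σ ^ Nat.card (L ≃ₐ[ℚ] L)) L ⟨x, hx⟩
  have h1 : AlgEquiv.restrictNormalHom L (σ ^ Nat.card (L ≃ₐ[ℚ] L)) = 1 := by
    rw [map_pow, pow_card_eq_one']
  rw [show (σ ^ Nat.card (L ≃ₐ[ℚ] L)).restrictNormal L = 1 from h1] at h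
  exact h.symm

/-- An element of the decomposition group preserves the valuation of an algebraic number. -/
theorem twist_mem_unitGroup {σ : AbsGal} (hσ : σ • A = A) (L : IntermediateField ℚ Qbar)
    [FiniteDimensional ℚ L] [Normal ℚ L] {x : Qbarˣ} (hx : (x : Qbar) ∈ L) :
    twist σ x ∈ A.unitGroup := by
  set n := Nat.card (L ≃ₐ[ℚ] L)
  have hn : 0 < n := Nat.card_pos
  have hprod : ∀ i : ℕ, ∏ j ∈ Finset.range i, (σ ^ j) ((twist σ x : Qbarˣ) : Qbar) =
      (σ ^ i) x / x := by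
    intro i
    induction i with
    | zero => simp
    | succ i ih =>
      have h0 : (σ ^ i) (x : Qbar) ≠ 0 := (map_ne_zero_iff _ (AlgEquiv.injective _)).2 x.ne_zero
      rw [Finset.prod_range_succ, ih, coe_twist, map_div₀, div_mul_div_comm, pow_succ,
        AlgEquiv.mul_apply, mul_comm (x : Qbar) ((σ ^ i) (x : Qbar)),
        mul_div_mul_left _ _ h0]
  have hone : ∏ j ∈ Finset.range n, (σ ^ j) ((twist σ x : Qbarˣ) : Qbar) = 1 := by
    rw [hprod, pow_card_apply L σ hx, div_self x.ne_zero]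
  have key : ∀ w : Qbar, w ∈ A → ∏ j ∈ Finset.range n, (σ ^ j) w = 1 → w⁻¹ ∈ A := by
    intro w hw hw1
    rw [← Finset.mul_prod_erase _ _ (Finset.mem_range.2 hn), pow_zero, AlgEquiv.one_apply] at hw1
    rw [inv_eq_of_mul_eq_one_right hw1]
    exact prod_mem fun j _ => (apply_mem_iff (smul_pow_eq hσ j) w).2 hw
  rcases A.mem_or_inv_mem ((twist σ x : Qbarˣ) : Qbar) with h | h
  · exact mem_unitGroup_of h (key _ h hone)
  · refine mem_unitGroup_of ?_ h
    simpa using key _ h (by simp_rw [map_inv₀, Finset.prod_inv_distrib, hone, inv_one])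

theorem twist_mem_principal {σ : AbsGal} (hσ : σ ∈ A.inertiaSubgroupIn ℚ) {y : Qbarˣ}
    (hy : y ∈ A.unitGroup) : twist σ y ∈ A.principalUnitGroup := by
  rw [mem_principal_iff, coe_twist, div_sub_one y.ne_zero, div_eq_mul_inv]
  exact mul_mem_nonunits_left A (((mem_inertia_iff A σ).1 hσ).2 _ (val_mem hy))
    (inv_val_mem hy)

/-- A root of unity of order prime to `q` congruent to one at `A` is one. -/
theorem eq_one_of_pow_eq_one (hq : q.Prime) (hA : A.LiesOverPrime q) {l : ℕ} (hl : ¬ q ∣ l)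
    {z : Qbar} (hz : z ^ l = 1) (h1 : z - 1 ∈ A.nonunits) : z = 1 := by
  by_contra hne
  have hzA : z ∈ A := by simpa using A.add_mem _ _ (A.nonunits_le h1) A.one_mem
  have hres : IsLocalRing.residue A ⟨z, hzA⟩ = IsLocalRing.residue A 1 :=
    (residue_eq_residue_iff A _ _).2 h1
  have hsum : ∑ i ∈ Finset.range l, z ^ i = 0 := by
    have h := geom_sum_mul z l
    rw [hz, sub_self, mul_eq_zero] at h
    exact h.resolve_right (sub_ne_zero.2 hne)
  have hsum' : ∑ i ∈ Finset.range l, (⟨z, hzA⟩ : A) ^ i = 0 := by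
    apply Subtype.ext
    simpa using hsum
  have h2 := congrArg (IsLocalRing.residue A) hsum'
  simp only [map_sum, map_pow, hres, map_one, one_pow, map_zero, Finset.sum_const,
    Finset.card_range, nsmul_eq_mul, mul_one] at h2
  have := charP_residueField A hq hA
  exact hl ((CharP.cast_eq_zero_iff _ q l).1 h2)

/-- Inertia fixes the roots of unity of order prime to `q`. -/
theorem apply_eq_of_pow_eq_one (hq : q.Prime) (hA : A.LiesOverPrime q) {σ : AbsGal}
    (hσ : σ ∈ A.inertiaSubgroupIn ℚ) {l : ℕ} (hl : ¬ q ∣ l) {z : Qbar} (hz : z ^ l = 1) :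
    σ z = z := by
  have hl0 : l ≠ 0 := fun h => hl (h ▸ dvd_zero q)
  have hz0 : z ≠ 0 := fun h => by simp [h, hl0] at hz
  have hint : ∀ w : Qbar, w ^ l = 1 → w ∈ A := fun w hw =>
    mem_of_isIntegral A (IsIntegral.of_pow (Nat.pos_of_ne_zero hl0)
      (by rw [hw]; exact isIntegral_one))
  have hu : Units.mk0 z hz0 ∈ A.unitGroup :=
    mem_unitGroup_of (hint z hz) (hint z⁻¹ (by rw [inv_pow, hz, inv_one]))
  have h := mem_principal_iff.1 (twist_mem_principal hσ hu)
  rw [coe_twist, Units.val_mk0] at h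
  have h1 := eq_one_of_pow_eq_one hq hA hl
    (by rw [div_pow, ← map_pow, hz, map_one, div_one]) h
  exact (div_eq_one_iff_eq hz0).1 h1

/-- A uniformiser of a number field inside `ℚ̄` at the place `A`. -/
theorem exists_uniformiser (hq : q.Prime) (hA : A.LiesOverPrime q)
    (L : IntermediateField ℚ Qbar) [NumberField L] :
    ∃ π : Qbarˣ, (π : Qbar) ∈ L ∧ ∀ x : Qbarˣ, (x : Qbar) ∈ L →
      ∃ k : ℤ, x / π ^ k ∈ A.unitGroup := by
  let P := primeBelow L A
  have hP0 : P ≠ ⊥ := by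
    intro h0
    have hP : (q : 𝓞 L) ∈ P := natCast_mem_primeBelow L hA
    rw [h0, Ideal.mem_bot] at hP
    exact hq.ne_zero (by exact_mod_cast hP)
  let v : HeightOneSpectrum (𝓞 L) := ⟨P, inferInstance, hP0⟩
  let ι : L →+* Qbar := algebraMap L Qbar
  have hint : ∀ a : 𝓞 L, ι a ∈ A := fun a =>
    mem_of_isIntegral A (map_isIntegral_int ι a.2)
  have hunit : ∀ a : 𝓞 L, a ∉ P → ι a ∉ A.nonunits := fun a ha h => ha ((mem_primeBelow L).2 h)
  have key : ∀ y : L, v.valuation L y = 1 → ι y ∈ A ∧ (ι y)⁻¹ ∈ A := by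
    intro y hy
    obtain ⟨n, ⟨d, hd⟩, e⟩ := v.exists_primeCompl_mul_eq_of_integer y hy.le
    have hn : n ∉ P := fun hn => by
      have h2 := congrArg (v.valuation L) e
      rw [map_mul, hy, one_mul] at h2
      have h3 : v.valuation L (algebraMap (𝓞 L) L d) = 1 :=
        le_antisymm (v.valuation_le_one d)
          (not_lt.1 fun h => hd ((v.valuation_lt_one_iff_mem d).1 h))
      exact ((v.valuation_lt_one_iff_mem n).2 hn).ne (h2.symm.trans h3)
    have e' : ι y * ι d = ι n := by rw [← map_mul]; exact congrArg ι e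
    have hd0 : ι d ≠ 0 := fun h =>
      hunit d hd (by rw [h]; exact A.mem_nonunits_iff_or.mpr (Or.inl rfl))
    have hy' : ι y = ι n * (ι d)⁻¹ := by rw [← e', mul_inv_cancel_right₀ hd0]
    exact ⟨by
      rw [hy']; exact mul_mem (hint n) (Gal.inv_mem_of_mem_of_notMem_nonunits A (hunit d hd)),
      by rw [hy', mul_inv, inv_inv]
         exact mul_mem (Gal.inv_mem_of_mem_of_notMem_nonunits A (hunit n hn)) (hint d)⟩
  obtain ⟨π, hπ⟩ := v.valuation_exists_uniformizer L
  have hπ0 : π ≠ 0 := fun h => by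
    rw [h, map_zero] at hπ
    exact WithZero.exp_ne_zero hπ.symm
  refine ⟨Units.mk0 (ι π) ((map_ne_zero ι).2 hπ0), π.2, fun x hx => ?_⟩
  let z : L := ⟨x, hx⟩
  have hz0 : z ≠ 0 := fun h => x.ne_zero (congrArg (fun y : L => (y : Qbar)) h)
  have hv0 : v.valuation L z ≠ 0 := (Valuation.ne_zero_iff _).mpr hz0
  refine ⟨-log (v.valuation L z), ?_⟩
  set m : ℤ := -log (v.valuation L z)
  have hvy : v.valuation L (z / π ^ m) = 1 := by
    rw [map_div₀, map_zpow₀, hπ, ← exp_zsmul, smul_eq_mul,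
      show m * -1 = log (v.valuation L z) by simp [m], exp_log hv0, div_self hv0]
  obtain ⟨h2, h3⟩ := key _ hvy
  have hval : ι (z / π ^ m) =
      ((x / Units.mk0 (ι π) ((map_ne_zero ι).2 hπ0) ^ m : Qbarˣ) : Qbar) := by
    rw [map_div₀, map_zpow₀, Units.val_div_eq_div_val, Units.val_zpow_eq_zpow_val, Units.val_mk0]
    rfl
  rw [hval] at h2 h3
  exact mem_unitGroup_of h2 h3

/-- The kernel of a character: if `σ` moves no valuation class and a power of `σ` of order
prime to `q` fixes `L`, then `σ` fixes `L`. -/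
theorem fixes_of_pow_fixes (hq : q.Prime) (hA : A.LiesOverPrime q)
    (L : IntermediateField ℚ Qbar) [FiniteDimensional ℚ L] [Normal ℚ L] {r : ℕ} (hr : ¬ q ∣ r)
    {σ : AbsGal}
    (h : ∀ i : ℕ, ∀ x : Qbarˣ, (x : Qbar) ∈ L → twist (σ ^ i) x ∈ A.principalUnitGroup)
    (hfix : ∀ x ∈ L, (σ ^ r) x = x) : ∀ x ∈ L, σ x = x := by
  intro x hx
  by_contra hne
  have hy0 : σ x - x ≠ 0 := sub_ne_zero.2 hne
  let y : Qbarˣ := Units.mk0 (σ x - x) hy0
  have hyL : (y : Qbar) ∈ L := L.sub_mem (apply_mem_field L σ hx) hx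
  have hsum : ∑ i ∈ Finset.range r, ((twist (σ ^ i) y : Qbarˣ) : Qbar) = 0 := by
    simp_rw [coe_twist, ← Finset.sum_div]
    have htel : ∑ i ∈ Finset.range r, (σ ^ i) (y : Qbar) = (σ ^ r) x - x := by
      have := Finset.sum_range_sub (fun i => (σ ^ i) x) r
      simp only [pow_zero, AlgEquiv.one_apply] at this
      rw [← this]
      refine Finset.sum_congr rfl fun i _ => ?_
      rw [Units.val_mk0, map_sub, pow_succ, AlgEquiv.mul_apply]
    rw [htel, hfix x hx, sub_self, zero_div]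
  have hmem : ∀ i : ℕ, ((twist (σ ^ i) y : Qbarˣ) : Qbar) ∈ A := fun i =>
    val_mem (A.principal_units_le_units (h i y hyL))
  have hsum' : ∑ i ∈ Finset.range r, (⟨_, hmem i⟩ : A) = 0 := by
    apply Subtype.ext
    simpa using hsum
  have h2 := congrArg (IsLocalRing.residue A) hsum'
  have h3 : ∀ i : ℕ, IsLocalRing.residue A ⟨_, hmem i⟩ = 1 := fun i => by
    rw [← map_one (IsLocalRing.residue A), residue_eq_residue_iff]
    exact mem_principal_iff.1 (h i y hyL)
  simp only [map_sum, h3, map_zero, Finset.sum_const, Finset.card_range, nsmul_eq_mul,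
    mul_one] at h2
  have := charP_residueField A hq hA
  exact hr ((CharP.cast_eq_zero_iff _ q r).1 h2)

section Theta

variable (A) (L : IntermediateField ℚ (AlgebraicClosure ℚ)) [FiniteDimensional ℚ L] [Normal ℚ L]
  (π : (AlgebraicClosure ℚ)ˣ) (hπ : (π : AlgebraicClosure ℚ) ∈ L)

/-- The tame character attached to a uniformiser. -/
def theta : A.inertiaSubgroupIn ℚ →* (IsLocalRing.ResidueField A)ˣ :=
  MonoidHom.mk' (fun σ => A.unitGroupToResidueFieldUnits
      ⟨twist (σ : AbsGal) π,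
        twist_mem_unitGroup ((mem_inertia_iff A (σ : AbsGal)).1 σ.2).1 L hπ⟩)
    (fun σ τ => by
      obtain ⟨σ, hσ⟩ := σ
      obtain ⟨τ, hτ⟩ := τ
      have hwA := twist_mem_unitGroup ((mem_inertia_iff A τ).1 hτ).1 L hπ
      have hsA := twist_mem_unitGroup ((mem_inertia_iff A σ).1 hσ).1 L hπ
      rw [← map_mul]
      refine residue_eq_of_sub_mem ?_
      have hid : ((twist (σ * τ) π : Qbarˣ) : Qbar) =
          σ ((twist τ π : Qbarˣ) : Qbar) * ((twist σ π : Qbarˣ) : Qbar) := by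
        simp only [coe_twist, AlgEquiv.mul_apply, map_div₀]
        field_simp
      change ((twist (σ * τ) π : Qbarˣ) : Qbar) -
        ((twist σ π * twist τ π : Qbarˣ) : Qbar) ∈ A.nonunits
      rw [hid, Units.val_mul, mul_comm ((twist σ π : Qbarˣ) : Qbar), ← sub_mul]
      exact mul_mem_nonunits_left A (((mem_inertia_iff A σ).1 hσ).2 _ (val_mem hwA))
        (val_mem hsA))

theorem theta_apply (σ : A.inertiaSubgroupIn ℚ) : theta A L π hπ σ =
    A.unitGroupToResidueFieldUnits ⟨twist (σ : AbsGal) π,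
      twist_mem_unitGroup ((mem_inertia_iff A (σ : AbsGal)).1 σ.2).1 L hπ⟩ := rfl

theorem theta_eq_one_iff (σ : A.inertiaSubgroupIn ℚ) :
    theta A L π hπ σ = 1 ↔ twist (σ : AbsGal) π ∈ A.principalUnitGroup := by
  rw [theta_apply, ← MonoidHom.mem_ker, A.ker_unitGroupToResidueFieldUnits]
  rfl

theorem isCyclic_range_theta : IsCyclic (theta A L π hπ).range := by
  let r : A.inertiaSubgroupIn ℚ → (L ≃ₐ[ℚ] L) :=
    fun σ => AlgEquiv.restrictNormalHom L (σ : AbsGal)
  have hfac : Function.FactorsThrough (theta A L π hπ) r := by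
    intro σ τ h
    rw [theta_apply, theta_apply]
    congr 1
    apply Subtype.ext
    apply Units.ext
    have h1 := AlgEquiv.restrictNormal_commutes (σ : AbsGal) L ⟨π, hπ⟩
    have h2 := AlgEquiv.restrictNormal_commutes (τ : AbsGal) L ⟨π, hπ⟩
    simp only [coe_twist]
    congr 1
    have h' : ((σ : AbsGal).restrictNormal L) = ((τ : AbsGal).restrictNormal L) := h
    rw [h'] at h1
    exact h1.symm.trans h2
  have : Finite (theta A L π hπ).range := by
    refine ((Set.finite_range (Function.extend r (theta A L π hπ)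
      (fun _ => 1))).subset ?_).to_subtype
    rintro _ ⟨σ, rfl⟩
    exact ⟨r σ, hfac.extend_apply _ σ⟩
  infer_instance

end Theta

/-- One representation: a generator of its inertial image and the Frobenius relation. -/
theorem exists_generator_single {l : ℕ} (hq : q.Prime) (hl : l.Prime) (hne : q ≠ l)
    (hA : A.LiesOverPrime q) {H : Type u} [Group H] (ρ : AbsGal →* H)
    (hlevel : ∃ F : IntermediateField ℚ Qbar, FiniteDimensional ℚ F ∧
      ∀ σ : AbsGal, (∀ x ∈ F, σ x = x) → ρ σ = 1)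
    (hord : ∀ σ ∈ A.inertiaSubgroupIn ℚ, ∃ k : ℕ, ρ σ ^ l ^ k = 1) :
    (∃ τ ∈ A.inertiaSubgroupIn ℚ, ∀ σ ∈ A.inertiaSubgroupIn ℚ, ∃ k : ℕ, ρ σ = ρ τ ^ k) ∧
      ∀ τ ∈ A.inertiaSubgroupIn ℚ, ∀ φ : AbsGal, A.IsFrobeniusAt φ q →
        ρ φ * ρ τ * (ρ φ)⁻¹ = ρ τ ^ q := by
  classical
  obtain ⟨F, hF, hρ⟩ := hlevel
  let L : IntermediateField ℚ Qbar := IntermediateField.normalClosure ℚ F Qbar
  have : Normal ℚ L := normalClosure.normal ℚ _ _
  have : NumberField L := ⟨⟩
  have hFL : F ≤ L := IntermediateField.le_normalClosure _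
  obtain ⟨π, hπ, hdec⟩ := exists_uniformiser hq hA L
  let θ := theta A L π hπ
  have hprin : ∀ σ : A.inertiaSubgroupIn ℚ, θ σ = 1 → ∀ x : Qbarˣ, (x : Qbar) ∈ L →
      twist (σ : AbsGal) x ∈ A.principalUnitGroup := by
    intro σ hσ x hx
    obtain ⟨k, hk⟩ := hdec x hx
    have h1 := twist_mem_principal σ.2 hk
    have h2 := zpow_mem ((theta_eq_one_iff A L π hπ σ).1 hσ) k
    have h3 := mul_mem h1 h2
    rwa [← map_zpow, ← map_mul, div_mul_cancel] at h3
  have hstep : ∀ a : ℕ, ∀ σ : A.inertiaSubgroupIn ℚ, θ σ = 1 →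
      (∀ x ∈ L, ((σ : AbsGal) ^ l ^ a) x = x) → ∀ x ∈ L, (σ : AbsGal) x = x := by
    intro a
    induction a with
    | zero => intro σ _ h; simpa using h
    | succ a ih =>
      intro σ hσ h
      have h1 : ∀ x ∈ L, ((σ ^ l : A.inertiaSubgroupIn ℚ) : AbsGal) x = x :=
        ih (σ ^ l) (by rw [map_pow, hσ, one_pow]) fun x hx => by
          rw [Subgroup.coe_pow, ← pow_mul, ← pow_succ']
          exact h x hx
      refine fixes_of_pow_fixes hq hA L (r := l) (fun hd => hne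
        ((Nat.prime_dvd_prime_iff_eq hq hl).1 hd)) (fun i x hx => ?_) fun x hx => ?_
      · rw [← Subgroup.coe_pow]
        exact hprin _ (by rw [map_pow, hσ, one_pow]) x hx
      · rw [← Subgroup.coe_pow]
        exact h1 x hx
  have hker : ∀ σ : A.inertiaSubgroupIn ℚ, θ σ = 1 → ρ σ = 1 := by
    intro σ hσ
    obtain ⟨a, m, hm, hn⟩ := Nat.exists_eq_pow_mul_and_not_dvd
      (Nat.card_pos : 0 < Nat.card (L ≃ₐ[ℚ] L)).ne' l hl.ne_one
    have hfix := hstep a (σ ^ m) (by rw [map_pow, hσ, one_pow]) fun x hx => by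
      rw [Subgroup.coe_pow, ← pow_mul, mul_comm, ← hn]
      exact pow_card_apply L _ hx
    have h1 : ρ (σ : AbsGal) ^ m = 1 := by
      rw [← map_pow, ← Subgroup.coe_pow]
      exact hρ _ fun x hx => hfix x (hFL hx)
    obtain ⟨k, hk⟩ := hord σ σ.2
    refine orderOf_eq_one_iff.1 (Nat.eq_one_of_dvd_coprimes ?_
      (orderOf_dvd_of_pow_eq_one h1) (orderOf_dvd_of_pow_eq_one hk))
    exact ((hl.coprime_iff_not_dvd.2 hm).symm.pow_right k)
  constructor
  · have := isCyclic_range_theta A L π hπ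
    obtain ⟨⟨g, τ, rfl⟩, hg⟩ := IsCyclic.exists_generator (α := θ.range)
    refine ⟨τ, τ.2, fun σ hσ => ?_⟩
    obtain ⟨k, hk⟩ := Subgroup.mem_zpowers_iff.1 (hg ⟨θ ⟨σ, hσ⟩, ⟨σ, hσ⟩, rfl⟩)
    have hk' : θ τ ^ k = θ ⟨σ, hσ⟩ := congrArg Subtype.val hk
    have h := hker (⟨σ, hσ⟩ * (τ ^ k)⁻¹) (by rw [map_mul, map_inv, map_zpow, hk', mul_inv_cancel])
    rw [Subgroup.coe_mul, Subgroup.coe_inv, Subgroup.coe_zpow, map_mul, map_inv, map_zpow,
      mul_inv_eq_one] at h
    obtain ⟨e, he⟩ := hord τ τ.2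
    have hfin : IsOfFinOrder (ρ τ) :=
      isOfFinOrder_iff_pow_eq_one.2 ⟨_, pow_pos hl.pos e, he⟩
    obtain ⟨n, hn⟩ := hfin.mem_powers_iff_mem_zpowers.2 (Subgroup.mem_zpowers_iff.2 ⟨k, h.symm⟩)
    exact ⟨n, hn.symm⟩
  · intro τ hτ φ hφ
    obtain ⟨hφA, hφq⟩ := (isFrobeniusAt_iff A φ q).1 hφ
    have hc : φ * τ * φ⁻¹ ∈ A.inertiaSubgroupIn ℚ := by
      have := conj_mem_inertia hτ φ
      rwa [hφA] at this
    have hφA' : φ⁻¹ • A = A := inv_smul_eq_iff.2 hφA.symm
    have hθ : θ ⟨_, hc⟩ = θ ⟨τ, hτ⟩ ^ q := by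
      let y : Qbarˣ := twist φ⁻¹ π * π
      have hy : ((y : Qbarˣ) : Qbar) = φ⁻¹ (π : Qbar) := by
        simp only [y, Units.val_mul, coe_twist]
        exact div_mul_cancel₀ _ π.ne_zero
      have hu := twist_mem_unitGroup hφA' L hπ
      have hτA := ((mem_inertia_iff A τ).1 hτ).1
      have hwA := twist_mem_unitGroup hτA L hπ
      have hy1 : twist τ y ∈ A.unitGroup := by
        rw [map_mul]
        exact mul_mem (A.principal_units_le_units (twist_mem_principal hτ hu)) hwA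
      have e2 : A.unitGroupToResidueFieldUnits ⟨twist τ y, hy1⟩ = θ ⟨τ, hτ⟩ := by
        refine residue_eq_of_sub_mem ?_
        change ((twist τ y : Qbarˣ) : Qbar) - ((twist τ π : Qbarˣ) : Qbar) ∈ A.nonunits
        rw [map_mul, Units.val_mul, ← sub_one_mul]
        exact mul_mem_nonunits_left A (mem_principal_iff.1 (twist_mem_principal hτ hu))
          (val_mem hwA)
      rw [← e2, ← map_pow, theta_apply]
      refine residue_eq_of_sub_mem ?_
      change ((twist (φ * τ * φ⁻¹) π : Qbarˣ) : Qbar) -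
        ((twist τ y ^ q : Qbarˣ) : Qbar) ∈ A.nonunits
      have h1 : ((twist (φ * τ * φ⁻¹) π : Qbarˣ) : Qbar) = φ ((twist τ y : Qbarˣ) : Qbar) := by
        rw [coe_twist, coe_twist, hy, map_div₀, AlgEquiv.mul_apply, AlgEquiv.mul_apply]
        congr 1
        exact (φ.apply_symm_apply _).symm
      rw [h1, Units.val_pow_eq_pow_val]
      exact hφq _ (val_mem hy1)
    have h := hker (⟨_, hc⟩ * ((⟨τ, hτ⟩ : A.inertiaSubgroupIn ℚ) ^ q)⁻¹)
      (by rw [map_mul, map_inv, map_pow, hθ, mul_inv_cancel])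
    rw [Subgroup.coe_mul, Subgroup.coe_inv, Subgroup.coe_pow, map_mul, map_inv, map_pow,
      mul_inv_eq_one] at h
    simpa using h

/-- Some inertia element moves the `l`-th roots of `q`. -/
theorem exists_move_root {l : ℕ} (hq : q.Prime) (hl : l.Prime) (hA : A.LiesOverPrime q) :
    ∃ τ ∈ A.inertiaSubgroupIn ℚ, ∃ r : Qbar, r ^ l = (q : Qbar) ∧ τ r ≠ r := by
  obtain ⟨r, hr⟩ := IsAlgClosed.exists_pow_nat_eq (q : Qbar) hl.pos
  by_contra hcon
  push Not at hcon
  have hr0 : r ≠ 0 := fun h => by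
    rw [h, zero_pow hl.ne_zero] at hr
    exact hq.ne_zero (by exact_mod_cast hr.symm)
  obtain ⟨m, h1, h2⟩ := Carayol.InertiaField.exists_zpow_mul_unit hq hA
    (fun σ hσ => hcon σ hσ r hr) hr0
  have hq0 : (q : Qbar) ≠ 0 := by exact_mod_cast hq.ne_zero
  have hvq0 : 0 < A.valuation (q : Qbar) := zero_lt_iff.2 ((Valuation.ne_zero_iff _).2 hq0)
  have hu : Units.mk0 (r / (q : Qbar) ^ m) (div_ne_zero hr0 (zpow_ne_zero m hq0)) ∈ A.unitGroup :=
    mem_unitGroup_of h1 (by rwa [Units.val_mk0, inv_div])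
  rw [A.mem_unitGroup_iff, Units.val_mk0, map_div₀, map_zpow₀,
    div_eq_one_iff_eq (zpow_ne_zero m hvq0.ne')] at hu
  have h3 : A.valuation (q : Qbar) = A.valuation (q : Qbar) ^ (m * (l : ℤ)) := by
    conv_lhs => rw [← hr]
    rw [map_pow, hu, zpow_mul, zpow_natCast]
  have h4 : A.valuation (q : Qbar) ^ (m * (l : ℤ) - 1) = 1 := by
    rw [zpow_sub₀ hvq0.ne', ← h3, zpow_one, div_self hvq0.ne']
  have h5 := (zpow_eq_one_iff_right₀ hvq0.le ((A.mem_nonunits_iff).1 hA).ne).1 h4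
  have h6 : (l : ℤ) ∣ 1 := ⟨m, by rw [mul_comm]; omega⟩
  exact hl.one_lt.ne' (Nat.dvd_one.1 (by exact_mod_cast h6))

/-- **Tame inertia.** A single inertia element generates the inertial image of every
representation of finite level with `l`-power inertial image, and Frobenius acts on it by
`q`-th powers. -/
theorem exists_tame_generator {l : ℕ} (hq : q.Prime) (hl : l.Prime) (hne : q ≠ l)
    (hA : A.LiesOverPrime q) :
    ∃ τ ∈ A.inertiaSubgroupIn ℚ, ∀ {H : Type u} [Group H] (ρ : AbsGal →* H),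
      (∃ F : IntermediateField ℚ Qbar, FiniteDimensional ℚ F ∧
        ∀ σ : AbsGal, (∀ x ∈ F, σ x = x) → ρ σ = 1) →
      (∀ σ ∈ A.inertiaSubgroupIn ℚ, ∃ k : ℕ, ρ σ ^ l ^ k = 1) →
      (∀ σ ∈ A.inertiaSubgroupIn ℚ, ∃ k : ℕ, ρ σ = ρ τ ^ k) ∧
        ∀ φ : AbsGal, A.IsFrobeniusAt φ q → ρ φ * ρ τ * (ρ φ)⁻¹ = ρ τ ^ q := by
  classical
  obtain ⟨τ, hτ, r, hr, hτr⟩ := exists_move_root hq hl hA
  refine ⟨τ, hτ, fun {H} _ ρ hlevel hord =>
    ⟨?_, (exists_generator_single hq hl hne hA ρ hlevel hord).2 τ hτ⟩⟩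
  let R : SubMulAction AbsGal Qbar :=
    { carrier := {x | x ^ l = (q : Qbar)}
      smul_mem' := fun g x hx => by
        show (g x) ^ l = (q : Qbar)
        rw [← map_pow, show x ^ l = (q : Qbar) from hx, map_natCast] }
  let perm : AbsGal →* Equiv.Perm R := MulAction.toPermHom AbsGal R
  have hpl : ∀ σ ∈ A.inertiaSubgroupIn ℚ, perm σ ^ l = 1 := by
    intro σ hσ
    rw [← map_pow]
    refine Equiv.ext fun x => Subtype.ext ?_
    show (σ ^ l) (x : Qbar) = x
    have hx : (x : Qbar) ^ l = (q : Qbar) := x.2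
    have hx0 : (x : Qbar) ≠ 0 := fun h => by
      rw [h, zero_pow hl.ne_zero] at hx
      exact hq.ne_zero (by exact_mod_cast hx.symm)
    set z : Qbar := σ x / x with hzdef
    have hz : z ^ l = 1 := by
      rw [div_pow, ← map_pow, hx, map_natCast, div_self (by exact_mod_cast hq.ne_zero)]
    have hσz : σ z = z := apply_eq_of_pow_eq_one hq hA hσ
      (fun hd => hne ((Nat.prime_dvd_prime_iff_eq hq hl).1 hd)) hz
    have hiter : ∀ i : ℕ, (σ ^ i) (x : Qbar) = z ^ i * x := by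
      intro i
      induction i with
      | zero => simp
      | succ i ih =>
        rw [pow_succ', AlgEquiv.mul_apply, ih, map_mul, map_pow, hσz, pow_succ, mul_assoc]
        congr 1
        rw [hzdef, div_mul_cancel₀ _ hx0]
    rw [hiter, hz, one_mul]
  obtain ⟨F, hF, hρ⟩ := hlevel
  have hfinR : (R : Set Qbar).Finite :=
    (Polynomial.nthRoots l (q : Qbar)).toFinset.finite_toSet.subset fun x hx => by
      simp only [Finset.mem_coe, Multiset.mem_toFinset, Polynomial.mem_nthRoots hl.pos]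
      exact hx
  have : FiniteDimensional ℚ (IntermediateField.adjoin ℚ (R : Set Qbar)) := by
    have : Finite (R : Set Qbar) := hfinR.to_subtype
    exact IntermediateField.finiteDimensional_adjoin
      fun x _ => Algebra.IsIntegral.isIntegral x
  obtain ⟨τ₀, hτ₀, hgen⟩ := (exists_generator_single hq hl hne hA (ρ.prod perm)
    ⟨F ⊔ IntermediateField.adjoin ℚ (R : Set Qbar),
      IntermediateField.finiteDimensional_sup F (IntermediateField.adjoin ℚ (R : Set Qbar)),
      fun σ hσ => Prod.ext (hρ σ fun x hx => hσ x (le_sup_left (a := F) hx))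
        (Equiv.ext fun x => Subtype.ext (hσ _
          (le_sup_right (b := IntermediateField.adjoin ℚ (R : Set Qbar))
            (IntermediateField.subset_adjoin ℚ _ x.2))))⟩
    (fun σ hσ => by
      obtain ⟨k, hk⟩ := hord σ hσ
      refine ⟨k + 1, Prod.ext ?_ ?_⟩
      · simp [pow_succ, pow_mul, hk]
      · change perm σ ^ l ^ (k + 1) = 1
        rw [pow_succ', pow_mul, hpl σ hσ, one_pow])).1
  intro σ hσ
  obtain ⟨k, hk⟩ := hgen τ hτ
  obtain ⟨j, hj⟩ := hgen σ hσ
  have hk1 : ρ τ = ρ τ₀ ^ k := congrArg Prod.fst hk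
  have hk2 : perm τ = perm τ₀ ^ k := congrArg Prod.snd hk
  have hlk : ¬ l ∣ k := by
    rintro ⟨c, rfl⟩
    rw [pow_mul, hpl τ₀ hτ₀, one_pow] at hk2
    exact hτr (congrArg Subtype.val (Equiv.ext_iff.1 hk2 ⟨r, hr⟩))
  obtain ⟨e, he⟩ := hord τ₀ hτ₀
  obtain ⟨d, hd⟩ : ∃ d : ℕ, (ρ τ₀ ^ k) ^ d = ρ τ₀ := by
    refine exists_pow_eq_self_of_coprime ?_
    exact (((hl.coprime_iff_not_dvd.2 hlk).symm).pow_right e).coprime_dvd_right
      (orderOf_dvd_of_pow_eq_one he)
  refine ⟨d * j, ?_⟩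
  rw [pow_mul, hk1, hd]
  exact congrArg Prod.fst hj

end Fermat.Agent.Gal.Tame
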